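import Fermat.Agent.CocompactDegree.Degree
import Mathlib.Analysis.Complex.MeanValue
import Mathlib.RingTheory.Complex

/-!
# Integrals over the disc

The weighted mean value property, the integrals of `(1 - t) ^ n / (1 - η t) ^ (n + 2)` with
`t = |w| ^ 2`, which concentrate at the origin as `n` grows, and the Cayley transfer to the upper
half plane.
-/

set_option autoImplicit false
set_option linter.unusedSectionVars false
set_option linter.style.haveILetI false

noncomputable section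

open MeasureTheory Set Filter Topology Complex Metric
open UpperHalfPlane hiding I
open FA.CocompactForms FA.CocompactDegree
open scoped Real ComplexConjugate

namespace FA.CocompactGaussBonnet

/-- Integration over the disc in polar coordinates. -/
theorem integral_ball_polar {g : ℂ → ℂ} {M : ℝ} (hg : ContinuousOn g (ball 0 1))
    (hM : ∀ w ∈ ball (0 : ℂ) 1, ‖g w‖ ≤ M) :
    ∫ w in ball 0 1, g w = ∫ r in Ioo (0 : ℝ) 1, r • ∫ t in Ioo (-π) π, g (polarPt r t) := by
  rw [← integral_indicator measurableSet_ball, ← Complex.integral_comp_polarCoord_symm]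
  have hset : polarCoord.target ∩ {p : ℝ × ℝ | p.1 < 1} = Ioo 0 1 ×ˢ Ioo (-π) π := by
    ext ⟨r, t⟩
    simp [polarCoord_target, and_assoc, and_comm]
  have heq : EqOn (fun p : ℝ × ℝ => p.1 • (ball 0 1).indicator g (Complex.polarCoord.symm p))
      ({p : ℝ × ℝ | p.1 < 1}.indicator fun p => p.1 • g (polarPt p.1 p.2)) polarCoord.target := by
    intro p hp
    have hp0 : (0 : ℝ) < p.1 := hp.1
    have e : Complex.polarCoord.symm p = polarPt p.1 p.2 := by
      rw [Complex.polarCoord_symm_apply]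
      rfl
    simp only [e]
    by_cases h : p.1 < 1
    · rw [indicator_of_mem (a := p) h, indicator_of_mem]
      rwa [mem_ball_zero_iff, norm_polarPt, abs_of_pos hp0]
    · rw [indicator_of_notMem (a := p) h, indicator_of_notMem, smul_zero]
      rwa [mem_ball_zero_iff, norm_polarPt, abs_of_pos hp0]
  rw [setIntegral_congr_fun polarCoord.open_target.measurableSet heq,
    setIntegral_indicator (measurableSet_lt measurable_fst measurable_const), hset,
    Measure.volume_eq_prod, setIntegral_prod]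
  · exact setIntegral_congr_fun measurableSet_Ioo fun r _ => integral_smul _ _
  · rw [← Measure.volume_eq_prod]
    have hc : ContinuousOn (fun p : ℝ × ℝ => p.1 • g (polarPt p.1 p.2))
        (Ioo 0 1 ×ˢ Ioo (-π) π) := by
      refine continuousOn_fst.smul (hg.comp (Continuous.continuousOn ?_) fun p hp => ?_)
      · unfold polarPt
        fun_prop
      · rw [mem_ball_zero_iff, norm_polarPt, abs_of_pos hp.1.1]
        exact hp.1.2
    refine IntegrableOn.of_bound ?_ (hc.aestronglyMeasurable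
      (measurableSet_Ioo.prod measurableSet_Ioo)) M ?_
    · rw [Measure.volume_eq_prod, Measure.prod_prod]
      exact ENNReal.mul_lt_top measure_Ioo_lt_top measure_Ioo_lt_top
    · refine (ae_restrict_mem (measurableSet_Ioo.prod measurableSet_Ioo)).mono fun p hp => ?_
      have hm : polarPt p.1 p.2 ∈ ball (0 : ℂ) 1 := by
        rw [mem_ball_zero_iff, norm_polarPt, abs_of_pos hp.1.1]
        exact hp.1.2
      rw [norm_smul, Real.norm_eq_abs, abs_of_pos hp.1.1]
      exact (mul_le_of_le_one_left (norm_nonneg _) hp.1.2.le).trans (hM _ hm)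

/-- Integrals of radial functions. -/
theorem integral_ball_radial {G F : ℝ → ℂ} (hG : ContinuousOn G (Icc 0 1))
    (hF : ∀ r ∈ Icc (0 : ℝ) 1, HasDerivAt F (r • G r) r) :
    ∫ w in ball (0 : ℂ) 1, G ‖w‖ = 2 * π * (F 1 - F 0) := by
  obtain ⟨M, hM⟩ := isCompact_Icc.exists_bound_of_continuousOn hG
  have hmaps : MapsTo (fun w : ℂ => ‖w‖) (ball 0 1) (Icc 0 1) := fun w hw =>
    ⟨norm_nonneg w, (mem_ball_zero_iff.1 hw).le⟩
  rw [integral_ball_polar (g := fun w => G ‖w‖) (hG.comp continuous_norm.continuousOn hmaps)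
    fun w hw =>
    hM _ (hmaps hw)]
  have hval : ∀ r ∈ Ioo (0 : ℝ) 1,
      r • ∫ t in Ioo (-π) π, G ‖polarPt r t‖ = (2 * π : ℂ) * (r • G r) := by
    intro r hr
    simp only [norm_polarPt, abs_of_pos hr.1, setIntegral_const, Real.volume_real_Ioo_of_le
      (neg_le_self Real.pi_pos.le), Complex.real_smul]
    push_cast
    ring
  rw [setIntegral_congr_fun measurableSet_Ioo hval, integral_const_mul,
    ← integral_Ioc_eq_integral_Ioo, ← intervalIntegral.integral_of_le zero_le_one,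
    intervalIntegral.integral_eq_sub_of_hasDerivAt (fun r hr => hF r (by
      rwa [uIcc_of_le zero_le_one] at hr))]
  exact (continuousOn_id.smul hG).intervalIntegrable_of_Icc zero_le_one

/-- The mean value over a circle. -/
theorem integral_angle_eq {g : ℂ → ℂ} (hg : DifferentiableOn ℂ g (ball 0 1)) {r : ℝ}
    (hr : r ∈ Ioo (0 : ℝ) 1) : ∫ t in Ioo (-π) π, g (polarPt r t) = 2 * π * g 0 := by
  have hd : DiffContOnCl ℂ g (ball 0 |r|) := DifferentiableOn.diffContOnCl
    (hg.mono (closure_ball_subset_closedBall.trans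
      (closedBall_subset_ball (by rw [abs_of_pos hr.1]; exact hr.2))))
  have e := hd.circleAverage
  rw [Real.circleAverage_def, inv_smul_eq_iff₀ (by positivity)] at e
  have hpt : ∀ t : ℝ, polarPt r t = circleMap 0 r t := fun t => by
    simp [polarPt, circleMap, Complex.exp_mul_I]
  have hper : Function.Periodic (fun t => g (circleMap 0 r t)) (2 * π) :=
    (periodic_circleMap 0 r).comp g
  simp only [hpt]
  rw [← integral_Ioc_eq_integral_Ioo, ← intervalIntegral.integral_of_le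
    (neg_le_self Real.pi_pos.le)]
  have := hper.intervalIntegral_add_eq (-π) 0
  rw [show -π + 2 * π = π by ring, zero_add] at this
  rw [this, e, Complex.real_smul]
  push_cast
  ring

/-- **The weighted mean value property.** -/
theorem disc_reproducing (n : ℕ) {g : ℂ → ℂ} (hg : DifferentiableOn ℂ g (ball 0 1)) {M : ℝ}
    (hM : ∀ w ∈ ball (0 : ℂ) 1, ‖(((1 - ‖w‖ ^ 2) ^ n : ℝ) : ℂ) * g w‖ ≤ M) :
    ∫ w in ball 0 1, (((1 - ‖w‖ ^ 2) ^ n : ℝ) : ℂ) * g w = π / (n + 1) * g 0 := by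
  rw [integral_ball_polar (M := M) (g := fun w => (((1 - ‖w‖ ^ 2) ^ n : ℝ) : ℂ) * g w)
    ((Continuous.continuousOn (by fun_prop)).mul hg.continuousOn) hM]
  have hval : ∀ r ∈ Ioo (0 : ℝ) 1, r • ∫ t in Ioo (-π) π,
      (((1 - ‖polarPt r t‖ ^ 2) ^ n : ℝ) : ℂ) * g (polarPt r t) =
        (2 * π * g 0) * (r • (((1 - r ^ 2) ^ n : ℝ) : ℂ)) := by
    intro r hr
    simp only [norm_polarPt, abs_of_pos hr.1, integral_const_mul, integral_angle_eq hg hr,
      Complex.real_smul]
    ring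
  rw [setIntegral_congr_fun measurableSet_Ioo hval, integral_const_mul,
    ← integral_Ioc_eq_integral_Ioo, ← intervalIntegral.integral_of_le zero_le_one,
    intervalIntegral.integral_eq_sub_of_hasDerivAt
      (f := fun r : ℝ => ((-(1 - r ^ 2) ^ (n + 1) / (2 * (n + 1)) : ℝ) : ℂ)) (fun r _ => ?_)
      ((Continuous.intervalIntegrable (by fun_prop)) _ _)]
  · simp only [one_pow, sub_self, ne_eq, Nat.add_eq_zero_iff, one_ne_zero, and_false,
      not_false_eq_true, zero_pow, OfNat.ofNat_ne_zero, sub_zero, ofReal_div, ofReal_neg,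
      ofReal_zero, ofReal_one, neg_zero, zero_div, ofReal_mul, ofReal_ofNat, ofReal_add,
      ofReal_natCast]
    field_simp
    ring
  · have h : HasDerivAt (fun r : ℝ => -(1 - r ^ 2) ^ (n + 1) / (2 * (n + 1)))
        (r * (1 - r ^ 2) ^ n) r := by
      convert! ((((hasDerivAt_pow 2 r).const_sub 1).fun_pow (n + 1)).neg).div_const
        (2 * ((n : ℝ) + 1)) using 1
      push_cast
      field_simp
    convert! h.ofReal_comp using 1
    rw [Complex.real_smul, ofReal_mul]

/-! ### The kernel of a rotation -/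

/-- `(1 - t) ^ n / (1 - η t) ^ (n + 2)` at `t = |w| ^ 2`. -/
def rotKernel (η : ℂ) (n : ℕ) (w : ℂ) : ℂ :=
  (1 - ((‖w‖ ^ 2 : ℝ) : ℂ)) ^ n / (1 - η * ((‖w‖ ^ 2 : ℝ) : ℂ)) ^ (n + 2)

variable {η : ℂ}

theorem one_sub_mul_ne_zero (hη : ‖η‖ = 1) (hη1 : η ≠ 1) {t : ℝ} (ht : 0 ≤ t) :
    1 - η * (t : ℂ) ≠ 0 := fun h => by
  rw [sub_eq_zero] at h
  have h1 := congrArg norm h
  rw [norm_one, norm_mul, hη, one_mul, Complex.norm_real, Real.norm_eq_abs, abs_of_nonneg ht] at h1
  rw [← h1, ofReal_one, mul_one] at h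
  exact hη1 h.symm

theorem continuous_rotKernel (hη : ‖η‖ = 1) (hη1 : η ≠ 1) (n : ℕ) :
    Continuous (rotKernel η n) :=
  Continuous.div (by fun_prop) (by fun_prop) fun w =>
    pow_ne_zero _ (one_sub_mul_ne_zero hη hη1 (sq_nonneg _))

theorem integral_rotKernel (hη : ‖η‖ = 1) (hη1 : η ≠ 1) (n : ℕ) :
    ∫ w in ball 0 1, rotKernel η n w = π / ((n + 1) * (1 - η)) := by
  have hne : ∀ r : ℝ, 1 - η * ((r ^ 2 : ℝ) : ℂ) ≠ 0 := fun r =>
    one_sub_mul_ne_zero hη hη1 (sq_nonneg _)
  have h1 : (1 : ℂ) - η ≠ 0 := sub_ne_zero.2 (Ne.symm hη1)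
  have hn : ((n : ℂ) + 1) ≠ 0 := by exact_mod_cast Nat.succ_ne_zero n
  show ∫ w in ball (0 : ℂ) 1, (fun r : ℝ => (1 - ((r ^ 2 : ℝ) : ℂ)) ^ n /
    (1 - η * ((r ^ 2 : ℝ) : ℂ)) ^ (n + 2)) ‖w‖ = _
  rw [integral_ball_radial (G := fun r : ℝ => (1 - ((r ^ 2 : ℝ) : ℂ)) ^ n /
      (1 - η * ((r ^ 2 : ℝ) : ℂ)) ^ (n + 2))
    (F := fun r : ℝ => -((1 - (r : ℂ) ^ 2) / (1 - η * (r : ℂ) ^ 2)) ^
      (n + 1) / (2 * (n + 1) * (1 - η)))]
  · simp
    field_simp
  · exact (Continuous.div (by fun_prop) (by fun_prop) fun r => pow_ne_zero _ (hne r)).continuousOn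
  · intro r _
    have hr := hne r
    rw [ofReal_pow] at hr
    have hbase : HasDerivAt (fun z : ℂ => -((1 - z ^ 2) / (1 - η * z ^ 2)) ^ (n + 1) /
        (2 * (n + 1) * (1 - η))) (r * (1 - (r : ℂ) ^ 2) ^ n /
          (1 - η * (r : ℂ) ^ 2) ^ (n + 2)) (r : ℂ) := by
      convert! (((((hasDerivAt_pow 2 (r : ℂ)).const_sub 1).fun_div
        (((hasDerivAt_pow 2 (r : ℂ)).const_mul η).const_sub 1) hr).fun_pow (n + 1)).neg).div_const
        (2 * ((n : ℂ) + 1) * (1 - η)) using 1
      push_cast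
      rw [div_pow, pow_succ _ (n + 1), pow_succ _ n]
      field_simp
      ring
    convert! hbase.comp_ofReal using 1
    rw [Complex.real_smul]
    push_cast
    ring

theorem exists_norm_rotKernel_le (hη : ‖η‖ = 1) (hη1 : η ≠ 1) :
    ∃ C b : ℝ, 0 < C ∧ 0 < b ∧ ∀ n : ℕ, ∀ w ∈ ball (0 : ℂ) 1,
      ‖rotKernel η n w‖ ≤ C / (1 + b * ‖w‖ ^ 2) ^ n := by
  set a := 2 * (1 - η.re) with ha
  have hsq : η.re * η.re + η.im * η.im = 1 := by
    rw [← normSq_apply, normSq_eq_norm_sq, hη, one_pow]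
  have ha0 : 0 < a := by
    have hle : η.re ≤ 1 := hη ▸ re_le_norm η
    rcases hle.lt_or_eq with h | h
    · linarith
    · rw [h] at hsq
      exact absurd (Complex.ext h (mul_self_eq_zero.1 (by linarith))) hη1
  set b := min 1 (a / 3) with hb
  have hb0 : 0 < b := lt_min one_pos (by linarith)
  set c := min (1 / 4) (a / 2) with hc
  have hc0 : 0 < c := lt_min (by norm_num) (by linarith)
  refine ⟨c⁻¹, b, inv_pos.2 hc0, hb0, fun n w hw => ?_⟩
  set t := ‖w‖ ^ 2 with ht
  have ht0 : 0 ≤ t := sq_nonneg _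
  have ht1 : t ≤ 1 := pow_le_one₀ (norm_nonneg w) (mem_ball_zero_iff.1 hw).le
  set D := ‖1 - η * (t : ℂ)‖ with hD
  have hD2 : D ^ 2 = (1 - t) ^ 2 + a * t := by
    rw [hD, ← normSq_eq_norm_sq]
    simp [normSq_apply, ha]
    linear_combination t ^ 2 * hsq
  have hDpos : 0 < D := norm_pos_iff.2 (one_sub_mul_ne_zero hη hη1 ht0)
  have hcD : c ≤ D ^ 2 := by
    rw [hD2]
    rcases le_or_gt t (1 / 2) with h | h
    · exact (min_le_left _ _).trans (by nlinarith)
    · exact (min_le_right _ _).trans (by nlinarith)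
  have hbt : (1 + b * t) * (1 - t) ≤ D := by
    refine (sq_le_sq₀ (mul_nonneg (by positivity) (by linarith)) hDpos.le).1 ?_
    rw [hD2, mul_pow]
    have hb1 : b ≤ 1 := min_le_left _ _
    have hb3 : b ≤ a / 3 := min_le_right _ _
    have h1 : (1 + b * t) ^ 2 ≤ 1 + a * t := by
      nlinarith [mul_le_mul hb1 ht1 ht0 zero_le_one, mul_nonneg hb0.le ht0]
    have h2 : (1 - t) ^ 2 ≤ 1 := by nlinarith
    have h3 : 0 ≤ a * t := mul_nonneg ha0.le ht0
    nlinarith [mul_le_mul_of_nonneg_right h1 (sq_nonneg (1 - t)),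
      mul_le_mul_of_nonneg_left h2 h3]
  rw [rotKernel, norm_div, norm_pow, norm_pow, ← ofReal_one, ← ofReal_sub, Complex.norm_real,
    Real.norm_eq_abs, ofReal_one, ← ht, abs_of_nonneg (by linarith), ← hD, pow_add]
  calc (1 - t) ^ n / (D ^ n * D ^ 2) = ((1 - t) / D) ^ n / D ^ 2 := by rw [div_pow, div_div]
    _ ≤ (1 / (1 + b * t)) ^ n / c :=
        div_le_div₀ (by positivity) (pow_le_pow_left₀ (div_nonneg (by linarith) hDpos.le)
          (by rw [div_le_div_iff₀ hDpos (by positivity)]; linarith) _) hc0 hcD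
    _ = c⁻¹ / (1 + b * t) ^ n := by rw [div_pow, one_pow]; ring

/-- **The kernel concentrates at the origin.** -/
theorem tendsto_rotKernel (hη : ‖η‖ = 1) (hη1 : η ≠ 1) {Φ : ℂ → ℂ} {M : ℝ}
    (hΦ : ContinuousOn Φ (ball 0 1)) (hM : ∀ w ∈ ball (0 : ℂ) 1, ‖Φ w‖ ≤ M) :
    Tendsto (fun n : ℕ => ((n : ℂ) + 1) / π * ∫ w in ball 0 1, Φ w * rotKernel η n w) atTop
      (𝓝 (Φ 0 / (1 - η))) := by
  have hπ : (π : ℂ) ≠ 0 := ofReal_ne_zero.2 Real.pi_pos.ne'
  have hM0 : 0 ≤ M := (norm_nonneg _).trans (hM 0 (mem_ball_self one_pos))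
  obtain ⟨C, b, hC, hb, hle⟩ := exists_norm_rotKernel_le hη hη1
  have hfin : volume (ball (0 : ℂ) 1) < ⊤ := measure_ball_lt_top
  have hint : ∀ n, ∀ Ψ : ℂ → ℂ, ∀ M' : ℝ, ContinuousOn Ψ (ball 0 1) →
      (∀ w ∈ ball (0 : ℂ) 1, ‖Ψ w‖ ≤ M') →
      IntegrableOn (fun w => Ψ w * rotKernel η n w) (ball 0 1) := fun n Ψ M' hΨ hM' => by
    refine IntegrableOn.of_bound hfin ((hΨ.mul (continuous_rotKernel hη hη1 n).continuousOn
      ).aestronglyMeasurable measurableSet_ball) (max M' 0 * C) ?_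
    refine (ae_restrict_mem measurableSet_ball).mono fun w hw => ?_
    rw [norm_mul]
    exact mul_le_mul ((hM' w hw).trans (le_max_left _ _)) ((hle n w hw).trans
      (div_le_self hC.le (one_le_pow₀ (le_add_of_nonneg_right (by positivity))))) (norm_nonneg _)
      (le_max_right _ _)
  suffices h : Tendsto (fun n : ℕ => ((n : ℂ) + 1) / π *
      ∫ w in ball 0 1, (Φ w - Φ 0) * rotKernel η n w) atTop (𝓝 0) by
    have h' := h.add_const (Φ 0 / (1 - η))
    rw [zero_add] at h'
    refine h'.congr fun n => ?_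
    simp only [sub_mul]
    rw [integral_sub (hint n Φ M hΦ hM) (hint n _ _ continuousOn_const fun _ _ => le_rfl),
      integral_const_mul, integral_rotKernel hη hη1]
    have hn : ((n : ℂ) + 1) ≠ 0 := by exact_mod_cast Nat.succ_ne_zero n
    have h1 : (1 : ℂ) - η ≠ 0 := sub_ne_zero.2 (Ne.symm hη1)
    field_simp
    ring
  rw [← tendsto_add_atTop_iff_nat 2, Metric.tendsto_atTop]
  intro ε hε
  set ε' := ε * b / (6 * C) with hε'
  have hε'0 : 0 < ε' := by positivity
  obtain ⟨δ, hδ, hnear⟩ := Metric.continuousWithinAt_iff.1 (hΦ 0 (mem_ball_self one_pos)) ε' hε'0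
  set ρ := (1 + b * δ ^ 2)⁻¹ with hρ
  have hρ1 : ρ < 1 := inv_lt_one_of_one_lt₀ (lt_add_of_pos_right _ (by positivity))
  have hρ0 : 0 ≤ ρ := by positivity
  set V := volume.real (ball (0 : ℂ) 1)
  have hlim : Tendsto (fun j : ℕ => ((j : ℝ) + 3) / π * (2 * M * C * ρ ^ j * V)) atTop (𝓝 0) := by
    have h1 := (tendsto_self_mul_const_pow_of_lt_one hρ0 hρ1).add
      ((tendsto_pow_atTop_nhds_zero_of_lt_one hρ0 hρ1).const_mul 3)
    simp only [mul_zero, add_zero] at h1
    have h2 := h1.mul_const (2 * M * C * V / π)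
    rw [zero_mul] at h2
    exact h2.congr fun j => by ring
  obtain ⟨N, hN⟩ := eventually_atTop.1 (hlim.eventually_lt_const (half_pos hε))
  refine ⟨N, fun j hj => ?_⟩
  rw [dist_zero_right, norm_mul, norm_div, Complex.norm_real, Real.norm_eq_abs,
    abs_of_pos Real.pi_pos]
  rw [show ‖((j + 2 : ℕ) : ℂ) + 1‖ = (j : ℝ) + 3 by
    rw [← Nat.cast_succ, Complex.norm_natCast]; push_cast; ring]
  have hbd : ∀ w ∈ ball (0 : ℂ) 1, ‖(Φ w - Φ 0) * rotKernel η (j + 2) w‖ ≤
      ε' * C * ((1 + b * ‖w‖ ^ 2) ^ (j + 2))⁻¹ + 2 * M * C * ρ ^ j := fun w hw => by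
    rw [norm_mul]
    have hk := hle (j + 2) w hw
    have h0 : 0 ≤ ε' * C * ((1 + b * ‖w‖ ^ 2) ^ (j + 2))⁻¹ := by positivity
    have h0' : 0 ≤ 2 * M * C * ρ ^ j := by positivity
    rcases lt_or_ge ‖w‖ δ with h | h
    · have := mul_le_mul (dist_eq_norm (Φ w) (Φ 0) ▸ (hnear hw (by rwa [dist_zero_right])).le)
        hk (norm_nonneg _) hε'0.le
      rw [div_eq_mul_inv] at this
      linarith
    · have hΦw : ‖Φ w - Φ 0‖ ≤ 2 * M := (norm_sub_le _ _).trans
        (by linarith [hM w hw, hM 0 (mem_ball_self one_pos)])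
      have hρw : ((1 + b * ‖w‖ ^ 2) ^ (j + 2))⁻¹ ≤ ρ ^ j := by
        rw [hρ, inv_pow]
        refine inv_anti₀ (by positivity) ((pow_le_pow_left₀ (by positivity) ?_ j).trans
          (pow_le_pow_right₀ (le_add_of_nonneg_right (by positivity)) (by omega)))
        gcongr
      have := mul_le_mul hΦw (hk.trans (show C / (1 + b * ‖w‖ ^ 2) ^ (j + 2) ≤ C * ρ ^ j by
        rw [div_eq_mul_inv]; exact mul_le_mul_of_nonneg_left hρw hC.le)) (norm_nonneg _)
        (by linarith)
      linarith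
  have hrad : ∫ w in ball (0 : ℂ) 1, ((1 + b * ‖w‖ ^ 2) ^ (j + 2))⁻¹ ≤ π / (b * (j + 1)) := by
    have h := integral_ball_radial (G := fun r : ℝ => ((((1 + b * r ^ 2) ^ (j + 2))⁻¹ : ℝ) : ℂ))
      (F := fun r : ℝ => ((-((1 + b * r ^ 2) ^ (j + 1))⁻¹ / (2 * b * (j + 1)) : ℝ) : ℂ))
      (Continuous.continuousOn (Complex.continuous_ofReal.comp (Continuous.inv₀ (by fun_prop)
        fun r => by positivity))) (fun r _ => by
          have hd : HasDerivAt (fun r : ℝ => -((1 + b * r ^ 2) ^ (j + 1))⁻¹ / (2 * b * (j + 1)))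
              (r * ((1 + b * r ^ 2) ^ (j + 2))⁻¹) r := by
            convert! ((((((hasDerivAt_pow 2 r).const_mul b).const_add 1).fun_pow (j + 1)).fun_inv
              (by positivity)).neg).div_const (2 * b * ((j : ℝ) + 1)) using 1
            push_cast
            rw [pow_succ _ (j + 1), pow_succ _ j]
            field_simp
          convert! hd.ofReal_comp using 1
          rw [Complex.real_smul, ofReal_mul])
    rw [integral_complex_ofReal, ← ofReal_sub, ← ofReal_ofNat, ← ofReal_mul, ← ofReal_mul,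
      ofReal_inj] at h
    rw [h]
    have hj1 : (0 : ℝ) < b * (j + 1) := by positivity
    have hb1 : 0 ≤ ((1 + b * 1 ^ 2) ^ (j + 1))⁻¹ := by positivity
    simp only [ne_eq, OfNat.ofNat_ne_zero, not_false_eq_true, zero_pow, mul_zero, add_zero,
      one_pow, inv_one, mul_one] at hb1 ⊢
    rw [← sub_div, mul_div_assoc', show 2 * b * ((j : ℝ) + 1) = 2 * (b * (j + 1)) by ring,
      mul_assoc, mul_div_mul_left _ _ two_ne_zero]
    exact div_le_div_of_nonneg_right (by nlinarith [Real.pi_pos]) hj1.le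
  have hir : IntegrableOn (fun w : ℂ => ((1 + b * ‖w‖ ^ 2) ^ (j + 2))⁻¹) (ball 0 1) :=
    (Continuous.inv₀ (by fun_prop) fun w => by positivity).locallyIntegrable.integrableOn_isCompact
      (isCompact_closedBall 0 1) |>.mono_set ball_subset_closedBall
  have hbound : ‖∫ w in ball 0 1, (Φ w - Φ 0) * rotKernel η (j + 2) w‖ ≤
      ε' * C * (π / (b * (j + 1))) + 2 * M * C * ρ ^ j * V := by
    refine (norm_integral_le_of_norm_le
      ((hir.const_mul (ε' * C)).add (integrableOn_const hfin.ne))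
      ((ae_restrict_mem measurableSet_ball).mono hbd)).trans ?_
    simp only [Pi.add_apply]
    rw [integral_add (hir.const_mul _) (integrableOn_const hfin.ne), integral_const_mul,
      setIntegral_const, smul_eq_mul, mul_comm V]
    gcongr
  refine (mul_le_mul_of_nonneg_left hbound (by positivity)).trans_lt ?_
  rw [mul_add]
  have hmain : ((j : ℝ) + 3) / π * (ε' * C * (π / (b * (j + 1)))) ≤ ε / 2 := by
    rw [hε']
    field_simp
    nlinarith
  linarith [hN j hj]

/-! ### The Cayley transfer -/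

theorem image_cay : cay '' ball 0 1 = {z : ℂ | 0 < z.im} := by
  ext z
  refine ⟨?_, fun hz => ⟨cayInv z, mem_ball_zero_iff.2 (norm_cayInv_lt_one ⟨z, hz⟩),
    cay_cayInv ⟨z, hz⟩⟩⟩
  rintro ⟨w, hw, rfl⟩
  exact im_cay_pos (mem_ball_zero_iff.1 hw)

theorem cay_injOn : InjOn cay (ball 0 1) := fun v hv w hw h => by
  have h1 := one_sub_ne_zero (mem_ball_zero_iff.1 hv)
  have h2 := one_sub_ne_zero (mem_ball_zero_iff.1 hw)
  rw [cay, cay, div_eq_div_iff h1 h2] at h
  refine mul_left_cancel₀ (mul_ne_zero two_ne_zero I_ne_zero) ?_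
  linear_combination h

theorem det_smulRight (c : ℂ) :
    ((ContinuousLinearMap.toSpanSingleton ℂ c).restrictScalars ℝ).det = normSq c := by
  have e : (((ContinuousLinearMap.toSpanSingleton ℂ c).restrictScalars ℝ : ℂ →L[ℝ] ℂ) : ℂ →ₗ[ℝ] ℂ)
      = Algebra.lmul ℝ ℂ c := LinearMap.ext fun x => by simp [mul_comm]
  rw [ContinuousLinearMap.det, e, ← Algebra.norm_complex_apply]
  rfl

/-- **Transfer to the disc.** -/
theorem integral_cay (G : ℍ → ℂ) :
    ∫ z : ℍ, G z =
      ∫ w in ball 0 1, (4 / (1 - ‖w‖ ^ 2) ^ 2 : ℝ) • G (ofComplex (cay w)) := by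
  set g : ℂ → ℂ := {z : ℂ | 0 < z.im}.indicator fun z => (z.im ^ 2)⁻¹ • G (ofComplex z) with hg
  have h1 : ∫ z : ℍ, G z = ∫ z, g z := by
    rw [integral_uhp fun z hz => indicator_of_notMem (by simpa using hz) _]
    refine integral_congr_ae (.of_forall fun z => ?_)
    simp only [indicator_of_mem (show (z : ℂ) ∈ {z : ℂ | 0 < z.im} from z.im_pos),
      ofComplex_apply, smul_smul, UpperHalfPlane.coe_im]
    rw [mul_inv_cancel₀ (pow_ne_zero _ z.im_ne_zero), one_smul]
  rw [h1, hg, integral_indicator isOpen_uhp.measurableSet, ← image_cay,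
    integral_image_eq_integral_abs_det_fderiv_smul volume measurableSet_ball
      (f' := fun w => (ContinuousLinearMap.toSpanSingleton ℂ (2 * I / (1 - w) ^ 2)).restrictScalars
        ℝ) (fun w hw => ?_) cay_injOn]
  · refine setIntegral_congr_fun measurableSet_ball fun w hw => ?_
    have hw' := mem_ball_zero_iff.1 hw
    simp only [det_smulRight, smul_smul, im_cay, abs_of_nonneg (normSq_nonneg _)]
    congr 1
    have hne := norm_ne_zero_iff.2 (one_sub_ne_zero hw')
    have hlt : 1 - ‖w‖ ^ 2 ≠ 0 := by nlinarith [norm_nonneg w]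
    simp only [map_div₀, map_mul, map_pow, normSq_ofNat, normSq_I, mul_one]
    rw [normSq_eq_norm_sq]
    field_simp
    ring
  · have hne := one_sub_ne_zero (mem_ball_zero_iff.1 hw)
    have h : HasDerivAt cay (2 * I / (1 - w) ^ 2) w := by
      convert! (((hasDerivAt_id' w).const_add 1).const_mul I).fun_div
        ((hasDerivAt_id' w).const_sub 1) hne using 1
      field_simp
      ring
    exact (h.hasFDerivAt.restrictScalars ℝ).hasFDerivWithinAt

end FA.CocompactGaussBonnet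

end
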