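import Fermat.Agent.CocompactGaussBonnet.Kernel
import Mathlib.RingTheory.RootsOfUnity.Complex

/-!
# Elliptic points

At a point the stabiliser acts on the tangent line through the roots of unity of order the index
of ramification.  A form of weight `2 m` vanishes there to an order congruent to `-m`, and the sum
`∑ ζ ^ m / (1 - ζ)` over these roots is computed.
-/

set_option autoImplicit false
set_option linter.unusedSectionVars false
set_option linter.style.haveILetI false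

noncomputable section

open Set Filter Topology Complex
open UpperHalfPlane hiding I
open FA.CocompactForms FA.CocompactFunctions FA.CocompactDegree
open scoped MatrixGroups Manifold Real ComplexConjugate

namespace FA.CocompactGaussBonnet

/-! ### The normalised term -/

theorem jac_conj (g : SL(2, ℝ)) (z : ℂ) : jac g (conj z) = conj (jac g z) := by
  simp [jac, conj_ofReal]

theorem mob_conj (g : SL(2, ℝ)) (z : ℂ) : mob g (conj z) = conj (mob g z) := by
  simp [mob, jac, conj_ofReal]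

theorem mob_sub_mob (g : SL(2, ℝ)) {x y : ℂ} (hx : jac g x ≠ 0) (hy : jac g y ≠ 0) :
    mob g x - mob g y = (x - y) / (jac g x * jac g y) := by
  have hdet : (g 0 0 : ℂ) * g 1 1 - g 0 1 * g 1 0 = 1 := by
    have h := g.prop
    rw [Matrix.det_fin_two] at h
    exact_mod_cast h
  rw [mob, mob, div_sub_div _ _ hx hy]
  congr 1
  simp only [jac]
  linear_combination (x - y) * hdet

theorem sub_conj_ne_zero (p q : ℍ) : (q : ℂ) - conj (p : ℂ) ≠ 0 := fun h => by
  have := congrArg Complex.im h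
  simp at this
  linarith [p.im_pos, q.im_pos]

theorem qFun_eq (g : SL(2, ℝ)) (p : ℍ) :
    qFun g p = ((p : ℂ) - conj (p : ℂ)) /
      (jac g p * (((g • p : ℍ) : ℂ) - conj (p : ℂ))) := by
  have hs : (Real.sqrt p.im : ℂ) ≠ 0 := ofReal_ne_zero.2 (Real.sqrt_ne_zero'.2 p.im_pos)
  have hseed : ∀ z : ℍ, seed p.toSL2R⁻¹ z = ((z : ℂ) - conj (p : ℂ)) / Real.sqrt p.im := by
    intro z
    rw [eq_div_iff hs]
    simp [seed, jac, UpperHalfPlane.toSL2R_apply, Matrix.SpecialLinearGroup.coe_inv,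
      Matrix.adjugate_fin_two, Complex.ext_iff]
    have h0 := Real.sqrt_pos.2 p.im_pos
    constructor <;> field_simp <;> nlinarith [Real.sq_sqrt p.im_pos.le]
  have e := seed_smul p.toSL2R⁻¹ (g * p.toSL2R) UpperHalfPlane.I
  rw [mul_smul, toSL2R_smul_I, hseed, jac_mul, toSL2R_smul_I, UpperHalfPlane.coe_I, jac_toSL2R,
    ← mul_assoc p.toSL2R⁻¹] at e
  rw [qFun, ← e, sub_conj, UpperHalfPlane.coe_im]
  have hy : (p.im : ℂ) = (Real.sqrt p.im : ℂ) * Real.sqrt p.im := by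
    rw [← ofReal_mul, Real.mul_self_sqrt p.im_pos.le]
  push_cast
  rw [hy]
  field_simp

theorem continuous_qFun (g : SL(2, ℝ)) : Continuous (qFun g) := by
  simp only [funext (qFun_eq g)]
  refine Continuous.div (UpperHalfPlane.continuous_coe.sub
    (Complex.continuous_conj.comp UpperHalfPlane.continuous_coe)) (Continuous.mul ?_ ?_)
    fun p => mul_ne_zero (jac_ne_zero g p.im_ne_zero) (sub_conj_ne_zero p (g • p))
  · simp only [jac]
    fun_prop
  · exact (UpperHalfPlane.continuous_coe.comp (continuous_const_smul g)).sub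
      (Complex.continuous_conj.comp UpperHalfPlane.continuous_coe)

theorem qFun_smul (g δ : SL(2, ℝ)) (u : ℍ) : qFun g (δ • u) = qFun (δ⁻¹ * g * δ) u := by
  set g' := δ⁻¹ * g * δ with hg'
  have hgd : g * δ = δ * g' := by rw [hg']; group
  have hgu : g • δ • u = δ • g' • u := by rw [← mul_smul, hgd, mul_smul]
  have hj : jac g (δ • u : ℍ) * jac δ u = jac δ (g' • u : ℍ) * jac g' u := by
    rw [← jac_mul, ← jac_mul, hgd]
  have h1 := jac_ne_zero δ u.im_ne_zero
  have h2 := jac_ne_zero δ (g' • u).im_ne_zero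
  have h3 : jac δ (conj (u : ℂ)) ≠ 0 := by
    rw [jac_conj]
    exact (map_ne_zero _).2 h1
  rw [qFun_eq, qFun_eq, hgu, eq_div_iff
    (mul_ne_zero (jac_ne_zero g' u.im_ne_zero) (sub_conj_ne_zero u (g' • u))), div_mul_eq_mul_div,
    div_eq_iff (mul_ne_zero (jac_ne_zero g (δ • u).im_ne_zero) (by
      rw [← hgu]; exact sub_conj_ne_zero (δ • u) (g • δ • u))),
    coe_smul_eq_mob δ u, coe_smul_eq_mob δ (g' • u), ← mob_conj, mob_sub_mob δ h1 h3,
    mob_sub_mob δ h2 h3]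
  rw [coe_smul_eq_mob δ u] at hj
  field_simp
  linear_combination -(((u : ℂ) - conj (u : ℂ)) * (((g' • u : ℍ) : ℂ) - conj (u : ℂ))) * hj

/-- The rotation number of an element fixing a point. -/
def etaOf (g : SL(2, ℝ)) (p : ℍ) : ℂ := (jac g p ^ 2)⁻¹

theorem norm_jac_of_fixed {g : SL(2, ℝ)} {p : ℍ} (h : g • p = p) : ‖jac g p‖ = 1 := by
  have e := im_smul_sl g p
  rw [h, eq_div_iff (by positivity [jac_ne_zero g p.im_ne_zero])] at e
  have h2 : ‖jac g p‖ ^ 2 = 1 := mul_left_cancel₀ p.im_ne_zero (e.trans (mul_one _).symm)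
  exact (sq_eq_one_iff.1 h2).resolve_right fun h' => by linarith [norm_nonneg (jac g p)]

theorem norm_etaOf {g : SL(2, ℝ)} {p : ℍ} (h : g • p = p) : ‖etaOf g p‖ = 1 := by
  rw [etaOf, norm_inv, norm_pow, norm_jac_of_fixed h, one_pow, inv_one]

theorem smul_eq_of_etaOf_eq_one {g : SL(2, ℝ)} {p : ℍ} (h : g • p = p) (h1 : etaOf g p = 1)
    (z : ℍ) : g • z = z := by
  rw [etaOf, inv_eq_one, sq_eq_one_iff] at h1
  rw [UpperHalfPlane.ext_iff, coe_smul_eq_mob, mob, div_eq_iff (jac_ne_zero g p.im_ne_zero)] at h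
  rw [UpperHalfPlane.ext_iff, coe_smul_eq_mob, mob, div_eq_iff (jac_ne_zero g z.im_ne_zero)]
  rcases h1 with h1 | h1
  all_goals
    rw [h1] at h
    simp [jac, Complex.ext_iff] at h h1 ⊢
    have hc : g 1 0 = 0 := h1.2.resolve_right p.im_ne_zero
    simp [hc] at h h1 ⊢
    have ha : g 0 0 = g 1 1 := by
      refine mul_right_cancel₀ p.im_ne_zero ?_
      rw [h1]
      linarith [h.2]
    have hb : g 0 1 = 0 := by
      rw [ha, h1] at h
      linarith [h.1]
    rw [ha, hb, h1]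
    constructor <;> ring

theorem qFun_triv {g : SL(2, ℝ)} (h : ∀ z : ℍ, g • z = z) (p : ℍ) :
    qFun g p ^ 2 = 1 := by
  have h1 : jac g p ^ 2 = 1 := by
    have hI := h UpperHalfPlane.I
    have h2 : ∀ z : ℍ, (g 1 0 : ℂ) * z ^ 2 + ((g 1 1 : ℂ) - g 0 0) * z - g 0 1 = 0 := fun z => by
      have e := h z
      rw [UpperHalfPlane.ext_iff, coe_smul_eq_mob, mob,
        div_eq_iff (jac_ne_zero g z.im_ne_zero), jac] at e
      linear_combination -e
    have e1 := h2 UpperHalfPlane.I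
    have e2 := h2 ⟨2 * I, by simp⟩
    simp [Complex.ext_iff, sq] at e1 e2
    have hc : g 1 0 = 0 := by linarith [e1.1, e2.1]
    have ha : g 0 0 = g 1 1 := by linarith [e1.2]
    have hdet := g.prop
    rw [Matrix.det_fin_two, hc, mul_zero, sub_zero, ha] at hdet
    simp only [jac, hc, ofReal_zero, zero_mul, zero_add]
    rw [sq, ← ofReal_mul, hdet, ofReal_one]
  rw [qFun_eq, h p, div_pow, mul_pow, h1, one_mul, div_self (pow_ne_zero _ (sub_conj_ne_zero p p))]

/-- The normalised term of a rotation in the disc. -/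
theorem qFun_cay {g : SL(2, ℝ)} {p : ℍ} (h : g • p = p) {w : ℂ} (hw : ‖w‖ < 1) :
    qFun g (p.toSL2R • ⟨cay w, im_cay_pos hw⟩) ^ 2 =
      etaOf g p * ((1 - ((‖w‖ ^ 2 : ℝ) : ℂ)) /
        (1 - etaOf g p * ((‖w‖ ^ 2 : ℝ) : ℂ))) ^ 2 := by
  set r := p.toSL2R⁻¹ * g * p.toSL2R with hrdef
  have hrI : r • UpperHalfPlane.I = UpperHalfPlane.I := by
    rw [hrdef, mul_smul, mul_smul, toSL2R_smul_I, h, inv_smul_eq_iff, toSL2R_smul_I]
  have hjr : jac r I = jac g p := by
    have e1 := jac_mul p.toSL2R r UpperHalfPlane.I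
    rw [hrI, show p.toSL2R * r = g * p.toSL2R by rw [hrdef]; group] at e1
    have e2 := jac_mul g p.toSL2R UpperHalfPlane.I
    rw [e1, toSL2R_smul_I, UpperHalfPlane.coe_I, mul_comm] at e2
    exact mul_right_cancel₀ (jac_ne_zero p.toSL2R (by simp)) e2
  set u : ℍ := ⟨cay w, im_cay_pos hw⟩ with hu
  set ε := jac g p with hεdef
  have hnorm : ε * conj ε = 1 := by
    rw [mul_conj, normSq_eq_norm_sq, norm_jac_of_fixed h, one_pow, ofReal_one]
  have hfix := hrI
  rw [UpperHalfPlane.ext_iff, coe_smul_eq_mob, mob, UpperHalfPlane.coe_I,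
    div_eq_iff (jac_ne_zero r (by simp))] at hfix
  simp [jac, Complex.ext_iff] at hfix
  have hε : ε = (r 0 0 : ℂ) + (r 1 0 : ℂ) * I := by
    rw [← hjr, jac, hfix.2]
    ring
  rw [qFun_smul, ← hrdef]
  have h1 : (1 : ℂ) - w ≠ 0 := one_sub_ne_zero hw
  have h1' : (1 : ℂ) - conj w ≠ 0 := one_sub_ne_zero (by rwa [RCLike.norm_conj])
  have hcu : conj (u : ℂ) = -I * (1 + conj w) / (1 - conj w) := by
    simp [hu, cay]
  have ht : ((‖w‖ ^ 2 : ℝ) : ℂ) = w * conj w := by rw [mul_conj, normSq_eq_norm_sq]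
  have hden : jac r u * (((r • u : ℍ) : ℂ) - conj (u : ℂ)) * ((1 - w) * (1 - conj w)) =
      2 * I * (ε - conj ε * (w * conj w)) := by
    rw [mul_sub, coe_smul_eq_mob, mob, mul_div_cancel₀ _ (jac_ne_zero r u.im_ne_zero), hcu]
    simp only [jac, hε, map_add, map_mul, conj_ofReal, conj_I, hu, cay, hfix.1, hfix.2,
      ofReal_neg]
    field_simp
    linear_combination ((r 1 0 : ℂ) * ((1 + w) * (1 + conj w) - 2 * (1 + w * conj w))) * I_mul_I
  have hnum : ((u : ℂ) - conj (u : ℂ)) * ((1 - w) * (1 - conj w)) =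
      2 * I * (1 - w * conj w) := by
    rw [hcu]
    simp only [hu, cay]
    field_simp
    ring
  have hne : (1 - w) * (1 - conj w) ≠ 0 := mul_ne_zero h1 h1'
  rw [qFun_eq, ← mul_div_mul_right _ _ hne, hden, hnum, ht, etaOf]
  have hεc : conj ε = ε⁻¹ := (inv_eq_of_mul_eq_one_right hnorm).symm
  have hε0 : ε ≠ 0 := left_ne_zero_of_mul_eq_one hnorm
  rw [hεc, ← hεdef]
  have hd : ε ^ 2 - w * conj w ≠ 0 := by
    intro h'
    have := congrArg norm (sub_eq_zero.1 h')
    rw [norm_pow, norm_jac_of_fixed h, norm_mul, RCLike.norm_conj] at this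
    nlinarith [norm_nonneg w]
  have hd' : (1 : ℂ) - (ε ^ 2)⁻¹ * (w * conj w) ≠ 0 := by
    rw [show (1 : ℂ) - (ε ^ 2)⁻¹ * (w * conj w) = (ε ^ 2 - w * conj w) / ε ^ 2 by field_simp]
    exact div_ne_zero hd (pow_ne_zero _ hε0)
  field_simp

/-! ### The stabiliser as roots of unity -/

variable (Γ : Subgroup SL(2, ℝ))

/-- The rotation numbers of a stabiliser. -/
def etaHom (p : ℍ) : MulAction.stabilizer Γ p →* ℂˣ :=
  MonoidHom.mk' (fun γ => Units.mk0 (etaOf ((γ : Γ) : SL(2, ℝ)) p)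
    (inv_ne_zero (pow_ne_zero _ (jac_ne_zero _ p.im_ne_zero)))) fun a b => Units.ext (by
      show etaOf _ p = etaOf _ p * etaOf _ p
      rw [etaOf, etaOf, etaOf, Subgroup.coe_mul, Subgroup.coe_mul, jac_mul, ← mul_inv, ← mul_pow]
      congr 4
      exact congrArg UpperHalfPlane.coe b.2)

variable [DiscreteTopology Γ]

theorem etaHom_eq_one_iff (p : ℍ) (γ : MulAction.stabilizer Γ p) :
    etaHom Γ p γ = 1 ↔ (γ : Γ) ∈ triv Γ := by
  rw [Units.ext_iff]
  constructor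
  · intro h
    exact (mem_triv Γ).2 (smul_eq_of_etaOf_eq_one γ.2 h)
  · intro h
    show etaOf _ p = 1
    have e := qFun_triv ((mem_triv Γ).1 h) p
    rw [qFun_eq, show (((γ : Γ) : SL(2, ℝ)) • p) = p from γ.2, div_pow, mul_pow] at e
    rw [etaOf]
    rw [div_eq_one_iff_eq (mul_ne_zero (pow_ne_zero _ (jac_ne_zero _ p.im_ne_zero))
      (pow_ne_zero _ (sub_conj_ne_zero p p))), eq_comm] at e
    rw [mul_eq_right₀ (pow_ne_zero _ (sub_conj_ne_zero p p))] at e
    rw [e, inv_one]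

theorem card_ker_etaHom (p : ℍ) : Nat.card (etaHom Γ p).ker = trivCard Γ := by
  refine Nat.card_congr ⟨fun γ => ⟨γ.1.1, (etaHom_eq_one_iff Γ p γ.1).1 γ.2⟩,
    fun γ => ⟨⟨γ.1, triv_le_stabilizer Γ p γ.2⟩, (etaHom_eq_one_iff Γ p _).2 γ.2⟩,
    fun _ => rfl, fun _ => rfl⟩

theorem card_range_etaHom (p : ℍ) : Nat.card (etaHom Γ p).range = ramIndex Γ p := by
  refine Nat.eq_of_mul_eq_mul_right (trivCard_pos Γ) ?_
  rw [ramIndex_mul, ← Nat.card_congr (QuotientGroup.quotientKerEquivRange (etaHom Γ p)).toEquiv,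
    ← card_ker_etaHom Γ p]
  exact (Subgroup.card_eq_card_quotient_mul_card_subgroup _).symm

theorem range_etaHom (p : ℍ) (ζ : ℂ) :
    (∃ γ, (etaHom Γ p γ : ℂ) = ζ) ↔ ζ ^ ramIndex Γ p = 1 := by
  classical
  haveI : Finite (etaHom Γ p).range := Nat.finite_of_card_ne_zero (by
    rw [card_range_etaHom]
    exact (ramIndex_pos Γ p).ne')
  haveI := Fintype.ofFinite (etaHom Γ p).range
  set A : Finset ℂ := Finset.univ.image fun u : (etaHom Γ p).range => ((u : ℂˣ) : ℂ)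
  have hA : A = Polynomial.nthRootsFinset (ramIndex Γ p) (1 : ℂ) := by
    refine Finset.eq_of_subset_of_card_le (fun z hz => ?_) ?_
    · obtain ⟨u, -, rfl⟩ := Finset.mem_image.1 hz
      rw [Polynomial.mem_nthRootsFinset (ramIndex_pos Γ p), ← card_range_etaHom]
      exact congrArg (fun v : ℂˣ => (v : ℂ)) (congrArg Subtype.val (pow_card_eq_one' (x := u)))
    · rw [(Complex.isPrimitiveRoot_exp _ (ramIndex_pos Γ p).ne').card_nthRootsFinset,
        Finset.card_image_of_injective _ (fun a b h => Subtype.ext (Units.ext h)),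
        Finset.card_univ, ← Nat.card_eq_fintype_card, card_range_etaHom]
  rw [← Polynomial.mem_nthRootsFinset (ramIndex_pos Γ p) (1 : ℂ), ← hA]
  simp only [A, Finset.mem_image, Finset.mem_univ, true_and]
  exact ⟨fun ⟨γ, h⟩ => ⟨⟨_, γ, rfl⟩, h⟩, fun ⟨⟨_, γ, rfl⟩, h⟩ => ⟨γ, h⟩⟩

/-- `∑ ζ ^ m / (1 - ζ)` over the roots of unity, the term at one being zero. -/
def rootSum (e m : ℕ) : ℂ := ∑ ζ ∈ Polynomial.nthRootsFinset e (1 : ℂ), ζ ^ m / (1 - ζ)

theorem sum_stabilizer (p : ℍ) (m : ℕ) [Fintype (MulAction.stabilizer Γ p)] :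
    ∑ γ : MulAction.stabilizer Γ p,
      etaOf ((γ : Γ) : SL(2, ℝ)) p ^ m / (1 - etaOf ((γ : Γ) : SL(2, ℝ)) p) =
      trivCard Γ * rootSum (ramIndex Γ p) m := by
  classical
  set H := etaHom Γ p
  have hmem : ∀ γ ∈ (Finset.univ : Finset (MulAction.stabilizer Γ p)),
      ((H γ : ℂˣ) : ℂ) ∈ Polynomial.nthRootsFinset (ramIndex Γ p) (1 : ℂ) := fun γ _ =>
    (Polynomial.mem_nthRootsFinset (ramIndex_pos Γ p) _).2 ((range_etaHom Γ p _).1 ⟨γ, rfl⟩)
  show ∑ γ, ((H γ : ℂˣ) : ℂ) ^ m / (1 - ((H γ : ℂˣ) : ℂ)) = _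
  rw [← Finset.sum_fiberwise_of_maps_to hmem, rootSum, Finset.mul_sum]
  refine Finset.sum_congr rfl fun ζ hζ => ?_
  obtain ⟨γ₀, hγ₀⟩ := (range_etaHom Γ p ζ).2
    ((Polynomial.mem_nthRootsFinset (ramIndex_pos Γ p) _).1 hζ)
  rw [Finset.sum_congr rfl (g := fun _ => ζ ^ m / (1 - ζ))
    fun γ hγ => by rw [(Finset.mem_filter.1 hγ).2], Finset.sum_const, nsmul_eq_mul]
  congr 2
  rw [← card_ker_etaHom Γ p, ← Nat.card_eq_finsetCard]
  refine Nat.card_congr ((Equiv.mulLeft γ₀⁻¹).subtypeEquiv fun γ => ?_)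
  rw [Finset.mem_filter, Equiv.coe_mulLeft, MonoidHom.mem_ker, map_mul, map_inv, inv_mul_eq_one,
    Units.ext_iff, hγ₀]
  exact ⟨fun h => h.2.symm, fun h => ⟨Finset.mem_univ _, h.symm⟩⟩

theorem sum_nthRoots_pow {e : ℕ} (he : 0 < e) (m : ℕ) :
    ∑ ζ ∈ Polynomial.nthRootsFinset e (1 : ℂ), ζ ^ m = if e ∣ m then (e : ℂ) else 0 := by
  have hξ := Complex.isPrimitiveRoot_exp e he.ne'
  set ξ := Complex.exp (2 * π * I / e)
  split_ifs with h
  · rw [Finset.sum_congr rfl (g := fun _ => (1 : ℂ)), Finset.sum_const, hξ.card_nthRootsFinset,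
      nsmul_eq_mul, mul_one]
    intro ζ hζ
    obtain ⟨d, rfl⟩ := h
    rw [pow_mul, (Polynomial.mem_nthRootsFinset he _).1 hζ, one_pow]
  · have hξ0 : ξ ≠ 0 := hξ.ne_zero he.ne'
    have hbij : ∑ ζ ∈ Polynomial.nthRootsFinset e (1 : ℂ), (ξ * ζ) ^ m =
        ∑ ζ ∈ Polynomial.nthRootsFinset e (1 : ℂ), ζ ^ m :=
      Finset.sum_nbij' (ξ * ·) (ξ⁻¹ * ·)
        (fun ζ hζ => (Polynomial.mem_nthRootsFinset he _).2 (by
          rw [mul_pow, hξ.pow_eq_one, one_mul, (Polynomial.mem_nthRootsFinset he _).1 hζ]))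
        (fun ζ hζ => (Polynomial.mem_nthRootsFinset he _).2 (by
          rw [mul_pow, inv_pow, hξ.pow_eq_one, inv_one, one_mul,
            (Polynomial.mem_nthRootsFinset he _).1 hζ]))
        (fun ζ _ => inv_mul_cancel_left₀ hξ0 ζ) (fun ζ _ => mul_inv_cancel_left₀ hξ0 ζ)
        fun ζ _ => rfl
    simp only [mul_pow, ← Finset.mul_sum] at hbij
    by_contra hne
    exact h (hξ.dvd_of_pow_eq_one m (mul_right_cancel₀ hne (hbij.trans (one_mul _).symm)))

theorem rootSum_step {e : ℕ} (he : 0 < e) (m : ℕ) :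
    rootSum e m - rootSum e (m + 1) = (if e ∣ m then (e : ℂ) else 0) - 1 := by
  classical
  rw [← sum_nthRoots_pow he m, rootSum, rootSum, ← Finset.sum_sub_distrib,
    ← Finset.sum_sdiff (Finset.singleton_subset_iff.2
      ((Polynomial.mem_nthRootsFinset he (1 : ℂ)).2 (one_pow e))),
    ← Finset.sum_sdiff (Finset.singleton_subset_iff.2
      ((Polynomial.mem_nthRootsFinset he (1 : ℂ)).2 (one_pow e)))
      (f := fun ζ : ℂ => ζ ^ m)]
  simp only [Finset.sum_singleton, one_pow, sub_self, add_zero, add_sub_cancel_right]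
  refine Finset.sum_congr rfl fun ζ hζ => ?_
  have h1 : (1 : ℂ) - ζ ≠ 0 := sub_ne_zero.2 fun h => by simp [← h] at hζ
  field_simp
  ring

theorem rootSum_zero {e : ℕ} (he : 0 < e) : rootSum e 0 = ((e : ℂ) - 1) / 2 := by
  classical
  have hinv : ∑ ζ ∈ Polynomial.nthRootsFinset e (1 : ℂ), ζ ^ 0 / (1 - ζ) =
      ∑ ζ ∈ Polynomial.nthRootsFinset e (1 : ℂ), ζ ^ 0 / (1 - ζ⁻¹) := by
    refine Finset.sum_nbij' (·⁻¹) (·⁻¹) ?_ ?_ (fun ζ _ => inv_inv ζ) (fun ζ _ => inv_inv ζ)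
      fun ζ _ => by simp
    all_goals
      intro ζ hζ
      exact (Polynomial.mem_nthRootsFinset he _).2 (by
        rw [inv_pow, (Polynomial.mem_nthRootsFinset he _).1 hζ, inv_one])
  have h : rootSum e 0 + rootSum e 0 =
      ∑ ζ ∈ Polynomial.nthRootsFinset e (1 : ℂ), ((1 : ℂ) - if ζ = 1 then 1 else 0) := by
    rw [rootSum]
    nth_rewrite 2 [hinv]
    rw [← Finset.sum_add_distrib]
    refine Finset.sum_congr rfl fun ζ hζ => ?_
    split_ifs with h1
    · simp [h1]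
    · have hζ0 : ζ ≠ 0 := fun h0 => by
        have := (Polynomial.mem_nthRootsFinset he _).1 hζ
        simp [h0, he.ne'] at this
      have h2 : (1 : ℂ) - ζ ≠ 0 := sub_ne_zero.2 (Ne.symm h1)
      have h3 : ζ - 1 ≠ 0 := sub_ne_zero.2 h1
      field_simp
      ring
  rw [Finset.sum_sub_distrib, Finset.sum_const, nsmul_eq_mul, mul_one, Finset.sum_ite_eq',
    if_pos ((Polynomial.mem_nthRootsFinset he (1 : ℂ)).2 (one_pow e)),
    (Complex.isPrimitiveRoot_exp e he.ne').card_nthRootsFinset] at h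
  linear_combination h / 2

/-- **The value of the sum over roots of unity.** -/
theorem rootSum_eq {e : ℕ} (he : 0 < e) (m : ℕ) :
    rootSum e m / e + (2 * (m : ℂ) - 1) / 2 * (1 - 1 / (e : ℂ)) =
      ((m * (e - 1) / e : ℕ) : ℂ) := by
  suffices h : ∀ m : ℕ, ∃ q r : ℕ, r < e ∧ m + r = q * e ∧
      rootSum e m = ((e : ℂ) - 1) / 2 - r by
    obtain ⟨q, r, hr, hq, hS⟩ := h m
    obtain ⟨e', rfl⟩ : ∃ e', e = e' + 1 := ⟨e - 1, by omega⟩
    have hqm : q ≤ m := by
      rcases Nat.eq_zero_or_pos q with h0 | h0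
      · omega
      · by_contra hlt
        push Not at hlt
        nlinarith
    have hfl : m * (e' + 1 - 1) / (e' + 1) = m - q := by
      rw [Nat.add_sub_cancel]
      refine Nat.div_eq_of_lt_le ?_ ?_
      · obtain ⟨d, rfl⟩ := Nat.exists_eq_add_of_le hqm
        rw [Nat.add_sub_cancel_left]
        nlinarith
      · obtain ⟨d, rfl⟩ := Nat.exists_eq_add_of_le hqm
        rw [Nat.add_sub_cancel_left]
        nlinarith
    rw [hS, hfl, Nat.cast_sub hqm]
    have hq' : (m : ℂ) + r = q * ((e' : ℂ) + 1) := by exact_mod_cast hq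
    have : ((e' : ℂ) + 1) ≠ 0 := by exact_mod_cast Nat.succ_ne_zero e'
    push_cast
    field_simp
    linear_combination -2 * hq'
  intro m
  induction m with
  | zero => exact ⟨0, 0, he, by simp, by simp [rootSum_zero he]⟩
  | succ m ih =>
    obtain ⟨q, r, hr, hq, hS⟩ := ih
    have hstep := rootSum_step he m
    rcases Nat.eq_zero_or_pos r with h0 | h0
    · rw [if_pos ⟨q, by rw [mul_comm]; omega⟩] at hstep
      refine ⟨q + 1, e - 1, by omega, by rw [add_mul, one_mul]; omega, ?_⟩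
      rw [Nat.cast_sub he]
      subst h0
      push_cast at hS ⊢
      linear_combination hS - hstep
    · rw [if_neg] at hstep
      · refine ⟨q, r - 1, by omega, by omega, ?_⟩
        rw [Nat.cast_sub h0]
        push_cast
        linear_combination hS - hstep
      · intro hd
        have hdr : e ∣ r := (Nat.dvd_add_right hd).1 ⟨q, by rw [hq, mul_comm]⟩
        have := Nat.le_of_dvd h0 hdr
        omega

/-! ### Vanishing at elliptic points -/

/-- **The order of a form of weight `2 m` is congruent to `-m`.** -/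
theorem dvd_ord_add {m : ℕ} {f : ℍ → ℂ} (hf : IsForm Γ ((2 * m : ℕ) : ℤ) f) (h0 : f ≠ 0)
    (p : ℍ) : ramIndex Γ p ∣ ordAt f p + m := by
  have he := ramIndex_pos Γ p
  have hξ := Complex.isPrimitiveRoot_exp (ramIndex Γ p) he.ne'
  obtain ⟨γ, hγ⟩ := (range_etaHom Γ p _).2 hξ.pow_eq_one
  refine hξ.dvd_of_pow_eq_one _ ?_
  rw [← hγ]
  set g : SL(2, ℝ) := ((γ : Γ) : SL(2, ℝ)) with hg
  show etaOf g p ^ _ = 1
  set n := ordAt f p
  have han := analyticAt_ext hf.1 p
  obtain ⟨H, hH, hH0, hfac⟩ :=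
    (han.analyticOrderAt_eq_natCast (n := analyticOrderNatAt (f ∘ ofComplex) (p : ℂ))).1
      (ENat.natCast_toNat (order_ne_top hf.1 h0 p)).symm
  have hp : g • p = p := γ.2
  have hpm : mob g p = p := by rw [← coe_smul_eq_mob, hp]
  have hcont : ContinuousAt (mob g) (p : ℂ) := (analyticAt_mob g p.im_pos).continuousAt
  have htend : Tendsto (mob g) (𝓝 (p : ℂ)) (𝓝 (p : ℂ)) := by
    have := hcont.tendsto
    rwa [hpm] at this
  have heq : ∀ᶠ z in 𝓝[≠] (p : ℂ), H (mob g z) =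
      jac g z ^ (2 * m) * (jac g z * jac g p) ^ n * H z := by
    filter_upwards [nhdsWithin_le_nhds (htend.eventually hfac), nhdsWithin_le_nhds hfac,
      nhdsWithin_le_nhds (isOpen_uhp.mem_nhds p.im_pos), self_mem_nhdsWithin] with z h1 h2 hz hzp
    have hform := ext_mob hf (γ : Γ) hz
    rw [zpow_natCast] at hform
    rw [h1, h2, smul_eq_mul, smul_eq_mul] at hform
    have hjz := jac_ne_zero g (ne_of_gt (α := ℝ) hz)
    have hjp := jac_ne_zero g p.im_ne_zero
    have hsub : mob g z - (p : ℂ) = (z - p) / (jac g z * jac g p) := by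
      rw [← mob_sub_mob g hjz hjp, hpm]
    have hne : (z - (p : ℂ)) ^ n ≠ 0 := pow_ne_zero _ (sub_ne_zero.2 hzp)
    rw [show analyticOrderNatAt (f ∘ ofComplex) (p : ℂ) = n from rfl, hsub, div_pow] at hform
    field_simp at hform
    linear_combination hform
  have hlim : H p = jac g p ^ (2 * m) * (jac g p * jac g p) ^ n * H p := by
    refine tendsto_nhds_unique_of_eventuallyEq (l := 𝓝[≠] (p : ℂ)) ?_ ?_ heq
    · exact (hH.continuousAt.tendsto.comp htend).mono_left nhdsWithin_le_nhds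
    · refine Tendsto.mono_left ?_ nhdsWithin_le_nhds
      have hc : ContinuousAt (fun z => jac g z ^ (2 * m) * (jac g z * jac g p) ^ n * H z)
          (p : ℂ) := by
        refine ContinuousAt.mul ?_ hH.continuousAt
        simp only [jac]
        fun_prop
      exact hc.tendsto
  have h1 := (mul_eq_right₀ hH0).1 hlim.symm
  rw [etaOf, inv_pow, inv_eq_one, ← h1]
  ring

theorem ramIndex_ne_one_iff (p : ℍ) : ramIndex Γ p ≠ 1 ↔ p ∈ fixSet Γ := by
  refine ⟨fun h => by_contra fun hp => h (ramIndex_eq_one Γ hp), fun ⟨γ, hγp, hγ⟩ h => hγ ?_⟩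
  have hone : (etaHom Γ p ⟨γ, hγp⟩ : ℂ) ^ ramIndex Γ p = 1 :=
    (range_etaHom Γ p _).1 ⟨_, rfl⟩
  rw [h, pow_one] at hone
  exact (etaHom_eq_one_iff Γ p ⟨γ, hγp⟩).1 (Units.ext hone)

theorem finite_fixed_in_compact {K : Set ℍ} (hK : IsCompact K) : (fixSet Γ ∩ K).Finite := by
  refine (((finite_returns Γ hK hK).sdiff (t := (triv Γ : Set Γ))).biUnion (t := fun γ =>
    {z : ℍ | γ • z = z}) fun γ hγ => (fixSet_subsingleton Γ hγ.2).finite).subset ?_
  rintro z ⟨⟨γ, hz, hγ⟩, hzK⟩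
  exact mem_iUnion₂.2 ⟨γ, ⟨⟨z, hzK, by rwa [hz]⟩, hγ⟩, hz⟩

/-- **Finitely many elliptic orbits.** -/
theorem finite_elliptic [CompactSpace (SL(2, ℝ) ⧸ Γ)] :
    {x : Orb Γ | ramIndex Γ x.out ≠ 1}.Finite := by
  refine ((finite_fixed_in_compact Γ (isCompact_coreSet Γ)).image
    (Quotient.mk'' : ℍ → Orb Γ)).subset fun x hx => ?_
  obtain ⟨γ, hγ, hz⟩ := exists_mem_coreSet Γ x.out
  exact ⟨(⟨γ, hγ⟩ : Γ) • x.out,
    ⟨smul_mem_fixSet Γ ((ramIndex_ne_one_iff Γ _).1 hx) ⟨γ, hγ⟩, hz⟩,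
    (Quotient.sound' (MulAction.mem_orbit x.out (⟨γ, hγ⟩ : Γ))).trans x.out_eq'⟩

end FA.CocompactGaussBonnet

end
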