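import Fermat.Agent.CocompactGaussBonnet.Limit

/-!
# The formula of Gauss and Bonnet

The asymptotic dimension is an integer, so `A / (4 π) - ∑ (1 - 1/e) / 2 + 1` is an integer `g`;
the bound by zeros gives `g ≥ 0`, and then `A ≥ π / 21`.
-/

set_option autoImplicit false
set_option linter.unusedSectionVars false
set_option linter.style.haveILetI false

noncomputable section

open MeasureTheory Set Filter Topology Complex
open UpperHalfPlane hiding I
open FA.CocompactForms FA.CocompactDegree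
open scoped MatrixGroups Manifold Real

namespace FA.CocompactGaussBonnet

theorem int_of_tendsto {a : ℕ → ℤ} {L : ℝ} (h : Tendsto (fun n => (a n : ℝ)) atTop (𝓝 L)) :
    ∃ N : ℤ, L = N ∧ ∀ᶠ n in atTop, a n = N := by
  obtain ⟨N, hN⟩ : L ∈ range ((↑) : ℤ → ℝ) :=
    Int.isClosedEmbedding_coe_real.isClosed_range.mem_of_tendsto h
      (.of_forall fun n => mem_range_self _)
  refine ⟨N, hN.symm, ?_⟩
  filter_upwards [(Metric.tendsto_nhds.1 h 1 one_pos)] with n hn
  rw [← hN, Real.dist_eq, ← Int.cast_sub] at hn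
  have : |a n - N| < 1 := by exact_mod_cast hn
  rw [Int.abs_lt_one_iff] at this
  omega

theorem inv_le_half {e : ℕ} (he : 2 ≤ e) : 1 / (e : ℝ) ≤ 1 / 2 :=
  one_div_le_one_div_of_le two_pos (by exact_mod_cast he)

theorem triangle_bound {a b c : ℕ} (ha : 2 ≤ a) (hab : a ≤ b) (hbc : b ≤ c)
    (h : 1 / (a : ℝ) + 1 / b + 1 / c < 1) : 1 / (a : ℝ) + 1 / b + 1 / c ≤ 41 / 42 := by
  have key : ∀ {n : ℕ} (N : ℕ), 0 < N → N ≤ n → 1 / (n : ℝ) ≤ 1 / N := fun N hN hn =>
    one_div_le_one_div_of_le (Nat.cast_pos.2 hN) (by exact_mod_cast hn)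
  rcases (show a = 2 ∨ a = 3 ∨ 4 ≤ a by omega) with rfl | rfl | ha4
  · rcases (show b = 2 ∨ b = 3 ∨ b = 4 ∨ 5 ≤ b by omega) with rfl | rfl | rfl | hb5
    · have : 0 < 1 / (c : ℝ) := one_div_pos.2 (Nat.cast_pos.2 (by omega))
      norm_num at h this ⊢
      linarith
    · have h7 : 7 ≤ c := by
        by_contra hc
        have := key (n := 6) c (by omega) (by omega)
        push_cast at h this
        linarith
      have := key 7 (by norm_num) h7
      push_cast at this ⊢
      linarith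
    · have h5 : 5 ≤ c := by
        by_contra hc
        have := key (n := 4) c (by omega) (by omega)
        push_cast at h this
        linarith
      have := key 5 (by norm_num) h5
      push_cast at this ⊢
      linarith
    · have h1 := key 5 (by norm_num) hb5
      have h2 := key 5 (by norm_num) (hb5.trans hbc)
      push_cast at h1 h2 ⊢
      linarith
  · rcases (show b = 3 ∨ 4 ≤ b by omega) with rfl | hb4
    · have h4 : 4 ≤ c := by
        by_contra hc
        have := key (n := 3) c (by omega) (by omega)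
        push_cast at h this
        linarith
      have := key 4 (by norm_num) h4
      push_cast at this ⊢
      linarith
    · have h1 := key 4 (by norm_num) hb4
      have h2 := key 4 (by norm_num) (hb4.trans hbc)
      push_cast at h1 h2 ⊢
      linarith
  · have h1 := key 4 (by norm_num) ha4
    have h2 := key 4 (by norm_num) (ha4.trans hab)
    have h3 := key 4 (by norm_num) ((ha4.trans hab).trans hbc)
    push_cast at h1 h2 h3 ⊢
    linarith

/-- **Hurwitz's combinatorial lemma.** -/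
theorem hurwitz_bound {ι : Type*} (s : Finset ι) (e : ι → ℕ) (he : ∀ i ∈ s, 2 ≤ e i) (g : ℕ)
    (hpos : 0 < 2 * (g : ℝ) - 2 + ∑ i ∈ s, (1 - 1 / (e i : ℝ))) :
    1 / 42 ≤ 2 * (g : ℝ) - 2 + ∑ i ∈ s, (1 - 1 / (e i : ℝ)) := by
  classical
  have hterm : ∀ i ∈ s, 1 / 2 ≤ 1 - 1 / (e i : ℝ) := fun i hi => by
    linarith [inv_le_half (he i hi)]
  have hlow : (s.card : ℝ) * (1 / 2) ≤ ∑ i ∈ s, (1 - 1 / (e i : ℝ)) := by
    simpa using Finset.card_nsmul_le_sum s _ _ hterm
  have hup : ∑ i ∈ s, (1 - 1 / (e i : ℝ)) ≤ s.card := by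
    refine (Finset.sum_le_card_nsmul s _ (1 : ℝ) fun i _ => ?_).trans_eq (by simp)
    have : 0 ≤ 1 / (e i : ℝ) := by positivity
    linarith
  have hs0 : 0 ≤ ∑ i ∈ s, (1 - 1 / (e i : ℝ)) := le_trans (by positivity) hlow
  rcases (show 2 ≤ g ∨ g = 1 ∨ g = 0 by omega) with hg | rfl | rfl
  · have : (2 : ℝ) ≤ g := by exact_mod_cast hg
    linarith
  · have hcard : 1 ≤ s.card := by
      by_contra hc
      rw [Finset.card_eq_zero.1 (by omega : s.card = 0)] at hpos
      simp at hpos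
    have : (1 : ℝ) ≤ s.card := by exact_mod_cast hcard
    push_cast at hpos ⊢
    linarith
  push_cast at hpos ⊢
  rcases (show s.card ≤ 2 ∨ s.card = 3 ∨ s.card = 4 ∨ 5 ≤ s.card by omega) with hc | hc | hc | hc
  · have : (s.card : ℝ) ≤ 2 := by exact_mod_cast hc
    linarith
  · obtain ⟨x, y, z, hxy, hxz, hyz, rfl⟩ := Finset.card_eq_three.1 hc
    rw [Finset.sum_insert (by simp [hxy, hxz]), Finset.sum_insert (by simp [hyz]),
      Finset.sum_singleton] at hpos ⊢
    have hx := he x (by simp)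
    have hy := he y (by simp)
    have hz := he z (by simp)
    suffices h : 1 / (e x : ℝ) + 1 / e y + 1 / e z ≤ 41 / 42 by linarith
    have h1 : 1 / (e x : ℝ) + 1 / e y + 1 / e z < 1 := by linarith
    rcases le_total (e x) (e y) with p | p <;> rcases le_total (e y) (e z) with q | q <;>
      rcases le_total (e x) (e z) with r | r
    · exact triangle_bound hx p q h1
    · exact triangle_bound hx p q h1
    · linarith [triangle_bound hx r q (by linarith)]
    · linarith [triangle_bound hz r p (by linarith)]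
    · linarith [triangle_bound hy p r (by linarith)]
    · linarith [triangle_bound hy q r (by linarith)]
    · linarith [triangle_bound hz q p (by linarith)]
    · linarith [triangle_bound hz q p (by linarith)]
  · obtain ⟨i, hi, hi3⟩ : ∃ i ∈ s, 3 ≤ e i := by
      by_contra hall
      push Not at hall
      rw [Finset.sum_congr rfl fun i hi => show 1 - 1 / (e i : ℝ) = 1 / 2 by
        rw [show e i = 2 by linarith [he i hi, hall i hi]]; norm_num, Finset.sum_const, hc]
        at hpos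
      norm_num at hpos
    rw [← Finset.add_sum_erase _ _ hi]
    have h1 : 1 / (e i : ℝ) ≤ 1 / 3 :=
      one_div_le_one_div_of_le three_pos (by exact_mod_cast hi3)
    have h2 := Finset.card_nsmul_le_sum (s.erase i) _ _
      fun j hj => hterm j (Finset.mem_of_mem_erase hj)
    rw [Finset.card_erase_of_mem hi, hc, nsmul_eq_mul] at h2
    push_cast at h2
    linarith
  · have : (5 : ℝ) ≤ s.card := by exact_mod_cast hc
    linarith

variable (Γ : Subgroup SL(2, ℝ)) [DiscreteTopology Γ] [CompactSpace (SL(2, ℝ) ⧸ Γ)]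

/-- The sum of `1 - 1 / e` over the elliptic orbits. -/
def ellipticDefect : ℝ :=
  ∑ x ∈ (finite_elliptic Γ).toFinset, (1 - 1 / (ramIndex Γ x.out : ℝ))

/-- The sum of `⌊m (1 - 1 / e)⌋` over the elliptic orbits. -/
def floorSum (m : ℕ) : ℕ :=
  ∑ x ∈ (finite_elliptic Γ).toFinset, m * (ramIndex Γ x.out - 1) / ramIndex Γ x.out

/-- Half of the Euler characteristic with the opposite sign, `g - 1`. -/
def halfChar : ℝ := area Γ / (4 * π) - ellipticDefect Γ / 2

theorem main_term_eq (m : ℕ) :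
    (2 * (m : ℂ) - 1) * area Γ / (4 * π) + ellipticSum Γ m =
      (2 * (m : ℂ) - 1) * halfChar Γ + floorSum Γ m := by
  rw [floorSum, Nat.cast_sum,
    Finset.sum_congr rfl fun x _ => (rootSum_eq (ramIndex_pos Γ x.out) m).symm,
    Finset.sum_add_distrib, ← Finset.mul_sum, ellipticSum, halfChar, ellipticDefect]
  push_cast
  ring

theorem tendsto_defect :
    Tendsto (fun m : ℕ => (((Module.finrank ℂ (forms Γ ((2 * m : ℕ) : ℤ)) : ℤ) - floorSum Γ m : ℤ) :
      ℝ) - (2 * (m : ℝ) - 1) * halfChar Γ) atTop (𝓝 0) := by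
  have h := (Complex.continuous_re.tendsto 0).comp (tendsto_finrank Γ)
  rw [Complex.zero_re] at h
  refine h.congr fun m => ?_
  rw [Function.comp_apply, main_term_eq]
  have e : (Module.finrank ℂ (forms Γ ((2 * m : ℕ) : ℤ)) : ℂ) -
      ((2 * (m : ℂ) - 1) * halfChar Γ + floorSum Γ m) =
      (((((Module.finrank ℂ (forms Γ ((2 * m : ℕ) : ℤ)) : ℤ) - floorSum Γ m : ℤ) : ℝ) -
        (2 * (m : ℝ) - 1) * halfChar Γ : ℝ) : ℂ) := by
    push_cast
    ring
  rw [e, Complex.ofReal_re]

theorem exists_eventually_dimension :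
    ∃ n : ℤ, halfChar Γ = n ∧ ∀ᶠ m : ℕ in atTop,
      (Module.finrank ℂ (forms Γ ((2 * m : ℕ) : ℤ)) : ℤ) = (2 * m - 1) * n + floorSum Γ m := by
  set a : ℕ → ℤ := fun m =>
    (Module.finrank ℂ (forms Γ ((2 * m : ℕ) : ℤ)) : ℤ) - floorSum Γ m
  have h : Tendsto (fun m : ℕ => (a m : ℝ) - (2 * (m : ℝ) - 1) * halfChar Γ) atTop (𝓝 0) :=
    tendsto_defect Γ
  have h1 : Tendsto (fun m : ℕ => ((a (m + 1) - a m : ℤ) : ℝ)) atTop (𝓝 (2 * halfChar Γ)) := by
    have := (((tendsto_add_atTop_iff_nat 1).2 h).sub h).add_const (2 * halfChar Γ)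
    rw [sub_zero, zero_add] at this
    refine this.congr fun m => ?_
    push_cast
    ring
  obtain ⟨N, hN, -⟩ := int_of_tendsto h1
  have h2 : Tendsto (fun m : ℕ => ((2 * a m - (2 * (m : ℤ) - 1) * N : ℤ) : ℝ)) atTop (𝓝 0) := by
    have := h.const_mul 2
    rw [mul_zero] at this
    refine this.congr fun m => ?_
    push_cast
    rw [← hN]
    ring
  obtain ⟨N', hN', hev⟩ := int_of_tendsto h2
  have hN0 : N' = 0 := by exact_mod_cast hN'.symm
  obtain ⟨m₀, hm₀⟩ := hev.exists
  obtain ⟨n, hn⟩ : (2 : ℤ) ∣ N := ⟨(m₀ : ℤ) * N - a m₀, by linarith⟩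
  refine ⟨n, ?_, hev.mono fun m hm => ?_⟩
  · rw [hn] at hN
    push_cast at hN
    linarith
  · rw [hN0, hn] at hm
    simp only [a] at hm
    linarith

theorem exists_positive_finrank (K : ℕ) :
    ∃ m : ℕ, K ≤ m ∧ 0 < Module.finrank ℂ (forms Γ ((2 * m : ℕ) : ℤ)) := by
  obtain ⟨k, hk, f, hf, h0⟩ := exists_form_ne_zero Γ K
  obtain ⟨C, hC⟩ := exists_finrank_le Γ
  haveI := (hC ((2 * k : ℕ) : ℤ)).1
  have hsq : IsForm Γ ((2 * k : ℕ) : ℤ) fun z => f z * f z :=
    ⟨UpperHalfPlane.mdifferentiable_iff.2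
      ((differentiableOn_ext hf.1).mul (differentiableOn_ext hf.1)), fun γ hγ z => by
      simp only [hf.2 γ hγ z, zpow_natCast, pow_mul']
      ring⟩
  refine ⟨k, hk, Nat.pos_of_ne_zero fun h => h0 (funext fun z => ?_)⟩
  have := (Submodule.eq_bot_iff _).1 (Submodule.finrank_eq_zero.1 h) _ hsq
  exact mul_self_eq_zero.1 (congrFun this z)

/-- The bound by the zeros, refined at the elliptic points. -/
theorem finrank_le_of_pos {m : ℕ} (hd : 0 < Module.finrank ℂ (forms Γ ((2 * m : ℕ) : ℤ))) :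
    (Module.finrank ℂ (forms Γ ((2 * m : ℕ) : ℤ)) : ℝ) - 1 ≤
      2 * m * halfChar Γ + floorSum Γ m := by
  classical
  obtain ⟨C, hC⟩ := exists_finrank_le Γ
  haveI := (hC ((2 * m : ℕ) : ℤ)).1
  set d := Module.finrank ℂ (forms Γ ((2 * m : ℕ) : ℤ)) with hddef
  obtain ⟨t, ht⟩ := exists_notMem_fixSet Γ
  let L : forms Γ ((2 * m : ℕ) : ℤ) →ₗ[ℂ] (Fin (d - 1) → ℂ) :=
    { toFun := fun f i => iteratedDeriv i (f.1 ∘ ofComplex) (t : ℂ)
      map_add' := fun f g => funext fun i => by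
        show iteratedDeriv _ ((f.1 ∘ ofComplex) + (g.1 ∘ ofComplex)) _ = _
        rw [iteratedDeriv_add (analyticAt_ext f.2.1 t).contDiffAt
          (analyticAt_ext g.2.1 t).contDiffAt]
        rfl
      map_smul' := fun c f => funext fun i => by
        show iteratedDeriv _ (fun w => c * (f.1 ∘ ofComplex) w) _ = _
        rw [iteratedDeriv_const_mul_field]
        rfl }
  obtain ⟨f, hfker, hf0⟩ : ∃ f, L f = 0 ∧ f ≠ 0 := by
    by_contra hne
    push Not at hne
    have := LinearMap.finrank_le_finrank_of_injective ((injective_iff_map_eq_zero L).2 hne)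
    rw [Module.finrank_fin_fun] at this
    omega
  have h0 : f.1 ≠ 0 := fun h => hf0 (Subtype.ext h)
  have hord : (d - 1 : ℕ) ≤ ordAt f.1 t := by
    have : ((d - 1 : ℕ) : ℕ∞) ≤ analyticOrderAt (f.1 ∘ ofComplex) (t : ℂ) :=
      (natCast_le_analyticOrderAt_iff_iteratedDeriv_eq_zero (analyticAt_ext f.2.1 t)).2
        fun i hi => congrFun hfker ⟨i, hi⟩
    rwa [← ENat.natCast_toNat (order_ne_top f.2.1 h0 t), Nat.cast_le] at this
  obtain ⟨hfin, hdeg⟩ := degree_formula f.2 h0
  set E := (finite_elliptic Γ).toFinset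
  set x₀ : Orb Γ := Quotient.mk'' t
  obtain ⟨δ, hδ⟩ := Quotient.mk_out (s := MulAction.orbitRel Γ ℍ) t
  have hx₀ : x₀.out = δ • t := hδ.symm
  have hx₀e : ramIndex Γ x₀.out = 1 := by rw [hx₀, ramIndex_smul, ramIndex_eq_one Γ ht]
  have hx₀E : x₀ ∉ E := fun h => (finite_elliptic Γ).mem_toFinset.1 h hx₀e
  have hsum : ((d : ℝ) - 1) + ∑ x ∈ E, (ordAt f.1 x.out : ℝ) / ramIndex Γ x.out ≤
      ((2 * m : ℕ) : ℤ) * area Γ / (4 * π) := by
    rw [← hdeg, weightedDegree, finsum_eq_sum_of_support_subset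
      (s := hfin.toFinset ∪ insert x₀ E) _ (fun x hx => by
        refine Finset.mem_union_left _ (hfin.mem_toFinset.2 (by_contra fun hne => hx ?_))
        simp [(ordAt_eq_zero_iff f.2.1 h0 _).2 hne])]
    refine le_trans ?_ (Finset.sum_le_sum_of_subset_of_nonneg Finset.subset_union_right
      fun x _ _ => by positivity)
    rw [Finset.sum_insert hx₀E, hx₀e, hx₀, ordAt_smul f.2 δ t, Nat.cast_one, div_one]
    have : ((d - 1 : ℕ) : ℝ) ≤ ordAt f.1 t := Nat.cast_le.2 hord
    rw [Nat.cast_sub hd, Nat.cast_one] at this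
    linarith
  have hlocal : ∀ x ∈ E, (m : ℝ) * (1 - 1 / (ramIndex Γ x.out : ℝ)) -
      (ordAt f.1 x.out : ℝ) / ramIndex Γ x.out ≤
        ((m * (ramIndex Γ x.out - 1) / ramIndex Γ x.out : ℕ) : ℝ) := fun x _ => by
    obtain ⟨s, hs⟩ := dvd_ord_add Γ f.2 h0 x.out
    have hepos := ramIndex_pos Γ x.out
    set e := ramIndex Γ x.out
    have heR : (0 : ℝ) < e := Nat.cast_pos.2 hepos
    have hsR : (ordAt f.1 x.out : ℝ) + m = e * s := by exact_mod_cast hs
    have hlhs : (m : ℝ) * (1 - 1 / (e : ℝ)) - (ordAt f.1 x.out : ℝ) / e = m - s := by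
      field_simp
      linear_combination -hsR
    rw [hlhs]
    rcases le_or_gt m s with hms | hms
    · refine le_trans (sub_nonpos.2 (by exact_mod_cast hms)) (Nat.cast_nonneg _)
    · rw [← Nat.cast_sub hms.le]
      refine Nat.cast_le.2 ((Nat.le_div_iff_mul_le hepos).2 ?_)
      obtain ⟨j, hj⟩ : ∃ j, m = s + j := ⟨m - s, by omega⟩
      obtain ⟨e', he'⟩ : ∃ e', e = e' + 1 := ⟨e - 1, by omega⟩
      obtain ⟨n, hn⟩ : ∃ n, ordAt f.1 x.out = n := ⟨_, rfl⟩
      rw [hn, hj, he'] at hs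
      rw [hj, he', Nat.add_sub_cancel_left, Nat.add_sub_cancel]
      nlinarith
  have hE := Finset.sum_le_sum hlocal
  rw [Finset.sum_sub_distrib, ← Finset.mul_sum, ← Nat.cast_sum] at hE
  have harea : ((2 * m : ℕ) : ℤ) * area Γ / (4 * π) =
      2 * m * halfChar Γ + m * ellipticDefect Γ := by
    rw [halfChar]
    push_cast
    ring
  rw [harea] at hsum
  simp only [floorSum, ellipticDefect] at hsum ⊢
  linarith

/-- **The formula of Gauss and Bonnet, and the dimension for large weights.** -/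
theorem exists_genus :
    ∃ g : ℕ, area Γ = 2 * π * (2 * (g : ℝ) - 2 + ellipticDefect Γ) ∧ ∀ᶠ m : ℕ in atTop,
      (Module.finrank ℂ (forms Γ ((2 * m : ℕ) : ℤ)) : ℤ) =
        (2 * (m : ℤ) - 1) * ((g : ℤ) - 1) + floorSum Γ m := by
  obtain ⟨n, hn, hev⟩ := exists_eventually_dimension Γ
  obtain ⟨K, hK⟩ := eventually_atTop.1 hev
  obtain ⟨m, hm, hpos⟩ := exists_positive_finrank Γ K
  have h1 := finrank_le_of_pos Γ hpos
  have h2 : (Module.finrank ℂ (forms Γ ((2 * m : ℕ) : ℤ)) : ℝ) =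
      (2 * (m : ℝ) - 1) * n + floorSum Γ m := by exact_mod_cast hK m hm
  have h3 : (-1 : ℤ) ≤ n := by
    have : (-1 : ℝ) ≤ n := by rw [hn] at h1; linarith
    exact_mod_cast this
  obtain ⟨g, hg⟩ : ∃ g : ℕ, (g : ℤ) = n + 1 := ⟨(n + 1).toNat, Int.toNat_of_nonneg (by omega)⟩
  refine ⟨g, ?_, hev.mono fun m hm => ?_⟩
  · have hgR : (g : ℝ) = n + 1 := by exact_mod_cast hg
    rw [halfChar] at hn
    have hA : area Γ / (4 * π) * (4 * π) = area Γ := div_mul_cancel₀ _ (by positivity)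
    rw [← hA, hgR]
    linear_combination (4 * π) * hn
  · rw [hm, hg, add_sub_cancel_right]

/-- **Siegel's bound.** -/
theorem pi_div_le_area : π / 21 ≤ area Γ := by
  obtain ⟨g, hg, -⟩ := exists_genus Γ
  have hpos : 0 < 2 * (g : ℝ) - 2 + ellipticDefect Γ :=
    pos_of_mul_pos_right (hg ▸ area_pos Γ) (by positivity)
  have h := hurwitz_bound (finite_elliptic Γ).toFinset (fun x => ramIndex Γ x.out)
    (fun x hx => by
      have := ramIndex_pos Γ x.out
      have := (finite_elliptic Γ).mem_toFinset.1 hx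
      simp only [Set.mem_ofPred_eq] at this
      omega) g hpos
  rw [hg]
  exact le_trans (by linarith [Real.pi_pos])
    (mul_le_mul_of_nonneg_left h (by positivity : (0 : ℝ) ≤ 2 * π))

end FA.CocompactGaussBonnet

end
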