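import Fermat.Agent.CocompactGaussBonnet.Disc
import Fermat.Agent.CocompactFunctions.Series
import Fermat.Agent.CocompactForms.Bound
import Mathlib.Analysis.InnerProductSpace.PiL2
import Mathlib.Analysis.Normed.Group.Tannery

/-!
# The reproducing kernel of the forms of weight `k`

For `k ≥ 4` the Poincaré series centred at `p` reproduces forms for the Petersson product, so the
dimension is the integral of `∑ q_γ ^ k`, with `q_γ p = 2 i / seed (h γ h⁻¹) i` and `h p = i`.
-/

set_option autoImplicit false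
set_option linter.unusedSectionVars false
set_option linter.style.haveILetI false

noncomputable section

open MeasureTheory Set Filter Topology Complex
open UpperHalfPlane hiding I
open FA.CocompactForms FA.CocompactFunctions FA.CocompactDegree
open scoped MatrixGroups Manifold Real ComplexConjugate ENNReal

namespace FA.CocompactGaussBonnet

/-- The constant of the reproducing kernel. -/
def kerConst (k : ℕ) : ℂ := ((k : ℂ) - 1) * (2 * I) ^ k / (4 * π)

theorem conj_kerConst (k : ℕ) : conj (kerConst k) = ((k : ℂ) - 1) * (-2 * I) ^ k / (4 * π) := by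
  simp [kerConst, conj_ofReal, map_ofNat]

theorem jac_inv (h : SL(2, ℝ)) :
    jac h (h⁻¹ • UpperHalfPlane.I : ℍ) * jac h⁻¹ I = 1 := by
  have e := jac_mul h h⁻¹ UpperHalfPlane.I
  rw [mul_inv_cancel, UpperHalfPlane.coe_I] at e
  rw [← e]
  simp [jac]

/-- **The reproducing property on the upper half plane.** -/
theorem bergman {k : ℕ} (hk : 4 ≤ k) (h : SL(2, ℝ)) {f : ℍ → ℂ} (hf : MDiff f) {M : ℝ}
    (hM : ∀ z, pet (k : ℤ) f z ≤ M) :
    jac h (h⁻¹ • UpperHalfPlane.I : ℍ) ^ k * f (h⁻¹ • UpperHalfPlane.I) =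
      conj (kerConst k) * ∫ z : ℍ, (z.im ^ k) • (conj ((seed h z ^ k)⁻¹) * f z) := by
  obtain ⟨n, rfl⟩ : ∃ n, k = n + 2 := ⟨k - 2, by omega⟩
  set g := chart ((n + 2 : ℕ) : ℤ) h⁻¹ f
  have hM0 : 0 ≤ M := (pet_nonneg _ _ UpperHalfPlane.I).trans (hM _)
  have hgb : ∀ w ∈ Metric.ball (0 : ℂ) 1,
      ‖(((1 - ‖w‖ ^ 2) ^ n : ℝ) : ℂ) * g w‖ ≤ M := fun w hw => by
    have hw' := mem_ball_zero_iff.1 hw
    set s := Real.sqrt (1 - ‖w‖ ^ 2) with hsdef
    have h1 : 0 < 1 - ‖w‖ ^ 2 := by nlinarith [norm_nonneg w]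
    have hs : 0 < s := Real.sqrt_pos.2 h1
    have hs1 : s ≤ 1 := Real.sqrt_le_one.2 (by nlinarith [norm_nonneg w])
    have e := norm_chart_le hM h⁻¹ hw'
    rw [zpow_neg, zpow_natCast] at e
    rw [norm_mul, Complex.norm_real, Real.norm_eq_abs, abs_of_pos (pow_pos h1 n),
      show 1 - ‖w‖ ^ 2 = s ^ 2 from (Real.sq_sqrt h1.le).symm, ← pow_mul]
    refine (mul_le_mul_of_nonneg_left e (by positivity)).trans ?_
    rw [show 2 * n = (n - 2) + (n + 2) by omega, pow_add, mul_assoc, mul_left_comm (s ^ (n + 2)),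
      mul_inv_cancel₀ (pow_ne_zero _ hs.ne'), mul_one]
    exact mul_le_of_le_one_left hM0 (pow_le_one₀ hs.le hs1)
  have hdisc := disc_reproducing n (differentiableOn_chart hf h⁻¹) hgb
  rw [← (measurePreserving_sl h⁻¹).integral_comp (measurableEmbedding_sl _), integral_cay]
  have hne : ((-2 : ℂ) * I) ^ (n + 2) ≠ 0 := pow_ne_zero _ (by simp [I_ne_zero])
  have hpt : ∀ w ∈ Metric.ball (0 : ℂ) 1, (4 / (1 - ‖w‖ ^ 2) ^ 2 : ℝ) •
      ((h⁻¹ • ofComplex (cay w) : ℍ).im ^ (n + 2) •
        (conj ((seed h (h⁻¹ • ofComplex (cay w) : ℍ) ^ (n + 2))⁻¹) *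
          f (h⁻¹ • ofComplex (cay w)))) =
      4 / ((-2 : ℂ) * I) ^ (n + 2) * ((((1 - ‖w‖ ^ 2) ^ n : ℝ) : ℂ) * g w) := by
    intro w hw
    have hw' := mem_ball_zero_iff.1 hw
    have him := im_cay_pos hw'
    rw [ofComplex_apply_of_im_pos him]
    set u : ℍ := ⟨cay w, him⟩ with hu
    set j := jac h⁻¹ (u : ℂ) with hj
    have hj0 : j ≠ 0 := jac_ne_zero _ u.im_ne_zero
    have h1w : (1 : ℂ) - w ≠ 0 := one_sub_ne_zero hw'
    have hseed : seed h (h⁻¹ • u : ℍ) * j = 2 * I / (1 - w) := by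
      rw [hj, seed_smul, mul_inv_cancel]
      simp [seed, jac, hu, cay]
      field_simp
      ring
    have hseed' : seed h (h⁻¹ • u : ℍ) = 2 * I / (1 - w) / j :=
      (eq_div_iff hj0).2 hseed
    have hfz : g w = ((1 - w) * j) ^ (-((n + 2 : ℕ) : ℤ)) * f (h⁻¹ • u) := by
      rw [hj, show (u : ℂ) = cay w from rfl]
      simp only [g, chart, Function.comp_apply]
      rw [show mob h⁻¹ (cay w) = ((h⁻¹ • u : ℍ) : ℂ) from (coe_smul_eq_mob h⁻¹ u).symm,
        ofComplex_apply]
    have him' : ((h⁻¹ • u : ℍ).im : ℂ) =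
        (1 - ((‖w‖ ^ 2 : ℝ) : ℂ)) / ((1 - w) * conj (1 - w)) / (j * conj j) := by
      rw [im_smul_sl, show u.im = (1 - ‖w‖ ^ 2) / ‖1 - w‖ ^ 2 from im_cay w, ← hj, ofReal_div,
        ofReal_div, mul_conj, mul_conj, normSq_eq_norm_sq, normSq_eq_norm_sq]
      push_cast
      rfl
    have hlt : 1 - ((‖w‖ ^ 2 : ℝ) : ℂ) ≠ 0 := by
      rw [← ofReal_one, ← ofReal_sub]
      exact ofReal_ne_zero.2 (by nlinarith [norm_nonneg w])
    have hcj : conj j ≠ 0 := (map_ne_zero _).2 hj0
    have hcw : conj (1 - w) ≠ 0 := (map_ne_zero _).2 h1w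
    rw [hseed', hfz, zpow_neg, zpow_natCast]
    simp only [Complex.real_smul, ofReal_pow, map_inv₀, map_pow, map_div₀, map_mul, conj_I,
      map_ofNat, ofReal_div, ofReal_sub, ofReal_one, ofReal_ofNat]
    rw [him']
    push_cast at hlt ⊢
    simp only [div_pow, mul_pow, neg_mul, mul_neg, neg_pow (2 * I)]
    field_simp
    ring
  rw [setIntegral_congr_fun measurableSet_ball hpt, integral_const_mul, hdisc]
  have h0 : g 0 = (jac h⁻¹ I ^ (n + 2))⁻¹ * f (h⁻¹ • UpperHalfPlane.I) := by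
    simp only [g, chart, cay_zero, sub_zero, one_mul, zpow_neg, zpow_natCast,
      Function.comp_apply]
    rw [show mob h⁻¹ I = ((h⁻¹ • UpperHalfPlane.I : ℍ) : ℂ) from
      (coe_smul_eq_mob h⁻¹ UpperHalfPlane.I).symm, ofComplex_apply]
  simp only [g] at h0
  rw [h0, eq_inv_of_mul_eq_one_left (jac_inv h), inv_pow, conj_kerConst]
  push_cast
  have hπ : (π : ℂ) ≠ 0 := ofReal_ne_zero.2 Real.pi_pos.ne'
  have hn : ((n : ℂ) + 1) ≠ 0 := by exact_mod_cast Nat.succ_ne_zero n
  field_simp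
  ring

theorem jac_toSL2R (p : ℍ) : jac p.toSL2R I = ((Real.sqrt p.im)⁻¹ : ℝ) := by
  simp [jac, UpperHalfPlane.toSL2R_apply]

/-- The kernel at `p`. -/
def kerFun (Γ : Subgroup SL(2, ℝ)) (k : ℕ) (p z : ℍ) : ℂ :=
  kerConst k / (Real.sqrt p.im : ℂ) ^ k * poincareAt Γ p.toSL2R⁻¹ k z

/-- The normalised term of the series at a point. -/
def qFun (g : SL(2, ℝ)) (p : ℍ) : ℂ := 2 * I / seed (p.toSL2R⁻¹ * g * p.toSL2R) I

/-- The Petersson product. -/
def petInner (ψ : ℂ → ℝ) (k : ℕ) (f g : ℍ → ℂ) : ℂ :=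
  ∫ z : ℍ, (ψ z * z.im ^ k) • (conj (f z) * g z)

variable {Γ : Subgroup SL(2, ℝ)} [DiscreteTopology Γ] {ψ : ℂ → ℝ} {G : Finset Γ} {k : ℕ}
  {f g : ℍ → ℂ}

theorem exists_box (h : IsPartition Γ ψ G) :
    ∃ B : ℝ, 1 ≤ B ∧ ∀ z ∈ tsupport ψ, |z.re| ≤ B ∧ 1 / B ≤ z.im := by
  obtain ⟨B₁, hB₁⟩ := h.compact.isCompact.exists_bound_of_continuousOn
    Complex.continuous_re.continuousOn
  obtain ⟨B₂, hB₂⟩ := h.compact.isCompact.exists_bound_of_continuousOn
    (f := fun z : ℂ => z.im⁻¹)
    (Complex.continuous_im.continuousOn.inv₀ fun z hz => ne_of_gt (h.subset hz))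
  refine ⟨max 1 (max B₁ B₂), le_max_left _ _, fun z hz => ⟨((Real.norm_eq_abs _).symm.trans_le
    (hB₁ z hz)).trans ((le_max_left _ _).trans (le_max_right _ _)), ?_⟩⟩
  rw [one_div]
  exact inv_le_of_inv_le₀ (h.subset hz) ((le_abs_self _).trans
    ((hB₂ z hz).trans ((le_max_right _ _).trans (le_max_right _ _))))

theorem integrable_partition_mul {E : Type*} [NormedAddCommGroup E] [NormedSpace ℝ E]
    (h : IsPartition Γ ψ G) {F : ℍ → E} (hF : Continuous F) :
    Integrable fun z : ℍ => ψ z • F z :=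
  (h.continuous_restrict.smul hF).integrable_of_hasCompactSupport
    h.hasCompactSupport_restrict.smul_right

theorem integrable_petInner (h : IsPartition Γ ψ G) (hf : MDiff f) (hg : MDiff g) :
    Integrable fun z : ℍ => (ψ z * z.im ^ k) • (conj (f z) * g z) := by
  simp only [mul_smul]
  exact integrable_partition_mul h ((UpperHalfPlane.continuous_im.pow k).smul
    ((Complex.continuous_conj.comp hf.continuous).mul hg.continuous))

/-- **The Poincaré series reproduces.** -/
theorem petInner_kerFun [CompactSpace (SL(2, ℝ) ⧸ Γ)] (h : IsPartition Γ ψ G) (hk : 4 ≤ k)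
    (hf : IsForm Γ (k : ℤ) f) (p : ℍ) : petInner ψ k (kerFun Γ k p) f = f p := by
  haveI := countable_group Γ
  obtain ⟨z₀, hz₀⟩ := exists_max_pet hf
  set η := p.toSL2R⁻¹
  have hp : η⁻¹ • UpperHalfPlane.I = p := by rw [inv_inv, toSL2R_smul_I]
  have hb := bergman hk η hf.1 hz₀
  have hjp := jac_inv η
  rw [hp] at hjp
  rw [hp, eq_inv_of_mul_eq_one_left hjp, inv_inv, jac_toSL2R, ofReal_inv, inv_inv] at hb
  set J : ℍ → ℂ := fun z => z.im ^ k • (conj ((seed η z ^ k)⁻¹) * f z)
  have hJ : ∀ (γ : Γ) (u : ℍ), J ((γ⁻¹ : Γ) • u) =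
      u.im ^ k • (conj ((seed (η * ((γ⁻¹ : Γ) : SL(2, ℝ))) u ^ k)⁻¹) * f u) := fun γ u => by
    set δ : SL(2, ℝ) := ((γ⁻¹ : Γ) : SL(2, ℝ)) with hδ
    have hne := jac_ne_zero δ u.im_ne_zero
    have hne' : conj (jac δ u) ≠ 0 := (map_ne_zero _).2 hne
    simp only [J, Subgroup.smul_def, ← hδ]
    rw [hf.2 δ (γ⁻¹).2 u, im_smul_sl, ← seed_smul η δ u, zpow_natCast]
    simp only [Complex.real_smul, ofReal_pow, ofReal_div, map_inv₀, map_pow, map_mul]
    rw [← ofReal_pow ‖jac δ u‖, ← normSq_eq_norm_sq, ← mul_conj]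
    have hs : conj (seed η (δ • u : ℍ)) ≠ 0 :=
      (map_ne_zero _).2 (seed_ne_zero _ (δ • u).im_pos)
    simp only [div_pow, mul_pow]
    field_simp
  obtain ⟨B, hB, hbox⟩ := exists_box h
  obtain ⟨v, hv, hle⟩ := exists_majorant_at Γ η (show 3 ≤ k by omega) hB
  have hterm : ∀ γ : Γ, Continuous fun u : ℍ =>
      u.im ^ k • (conj ((seed (η * (γ : SL(2, ℝ))) u ^ k)⁻¹) * f u) := fun γ => by
    refine (UpperHalfPlane.continuous_im.pow k).smul ((Complex.continuous_conj.comp
      (Continuous.inv₀ (Continuous.pow ?_ k) fun u =>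
        pow_ne_zero k (seed_ne_zero _ u.im_pos))).mul hf.1.continuous)
    simp only [seed, jac]
    fun_prop
  set Φ : Γ → ℍ → ℂ := fun γ u =>
    ψ u • (u.im ^ k • (conj ((seed (η * ((γ⁻¹ : Γ) : SL(2, ℝ))) u ^ k)⁻¹) * f u))
  have hΦi : ∀ γ, Integrable (Φ γ) := fun γ => integrable_partition_mul h (hterm _)
  have hC := integrable_partition_mul h (F := fun u => u.im ^ k * ‖f u‖)
    ((UpperHalfPlane.continuous_im.pow k).mul hf.1.continuous.norm)
  have hΦs : Summable fun γ => ∫ u, ‖Φ γ u‖ := by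
    refine ((((Equiv.inv Γ).summable_iff).2 hv).mul_left
      (∫ u : ℍ, ψ u • (u.im ^ k * ‖f u‖))).of_nonneg_of_le
      (fun γ => integral_nonneg fun _ => norm_nonneg _) fun γ => ?_
    rw [← integral_mul_const]
    refine integral_mono (hΦi γ).norm (hC.mul_const _) fun u => ?_
    simp only [Φ, norm_smul, norm_mul, RCLike.norm_conj, Real.norm_eq_abs,
      abs_of_nonneg (h.nonneg _), abs_of_pos u.im_pos, smul_eq_mul, Equiv.inv_apply,
      Function.comp_apply, norm_pow]
    rcases eq_or_ne (ψ u) 0 with h0 | h0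
    · simp [h0]
    obtain ⟨hre, him⟩ := hbox u (subset_closure h0)
    have := hle γ⁻¹ u hre him
    have h1 : 0 ≤ ψ u * (u.im ^ k * ‖f u‖) := by
      have := h.nonneg u
      positivity
    calc _ = ψ u * (u.im ^ k * ‖f u‖) *
          ‖(seed (η * ((γ⁻¹ : Γ) : SL(2, ℝ))) u ^ k)⁻¹‖ := by rw [norm_inv, norm_pow]; ring
      _ ≤ _ := mul_le_mul_of_nonneg_left this h1
  have hA : ∀ (γ : Γ) (u : ℍ),
      (fun z : ℍ => ψ ((γ • z : ℍ) : ℂ) • J z) ((γ⁻¹ : Γ) • u) = Φ γ u := fun γ u => by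
    simp only [smul_inv_smul, hJ γ u, Φ]
  set A : Γ → ℍ → ℂ := fun γ z => ψ ((γ • z : ℍ) : ℂ) • J z
  have hAi : ∀ γ, Integrable (A γ) := fun γ =>
    ((measurePreserving_sl ((γ⁻¹ : Γ) : SL(2, ℝ))).integrable_comp_emb
      (measurableEmbedding_sl _)).1 ((hΦi γ).congr (.of_forall fun u => (hA γ u).symm))
  have hAint : ∀ γ, ∫ z, A γ z = ∫ u, Φ γ u := fun γ => by
    rw [← (measurePreserving_sl ((γ⁻¹ : Γ) : SL(2, ℝ))).integral_comp (measurableEmbedding_sl _)]
    exact integral_congr_ae (.of_forall fun u => hA γ u)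
  have hAn : ∀ γ, ∫ z, ‖A γ z‖ = ∫ u, ‖Φ γ u‖ := fun γ => by
    rw [← (measurePreserving_sl ((γ⁻¹ : Γ) : SL(2, ℝ))).integral_comp (measurableEmbedding_sl _)]
    exact integral_congr_ae (.of_forall fun u => congrArg norm (hA γ u))
  have hunfold : ∫ z, J z = ∫ u : ℍ, ∑' γ : Γ, Φ γ u := by
    calc ∫ z, J z = ∫ z : ℍ, ∑' γ : Γ, A γ z := by
          refine integral_congr_ae (.of_forall fun z => ?_)
          simp only [A]
          rw [((h.hasSum z).smul_const (J z)).tsum_eq, one_smul]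
      _ = ∑' γ : Γ, ∫ z, A γ z :=
          (integral_tsum_of_summable_integral_norm hAi (by simpa only [hAn] using hΦs)).symm
      _ = ∑' γ : Γ, ∫ u, Φ γ u := tsum_congr hAint
      _ = _ := integral_tsum_of_summable_integral_norm hΦi hΦs
  have hsy : (Real.sqrt p.im : ℂ) ^ k ≠ 0 :=
    pow_ne_zero _ (ofReal_ne_zero.2 (Real.sqrt_ne_zero'.2 p.im_pos))
  refine mul_left_cancel₀ hsy (Eq.trans ?_ hb.symm)
  rw [hunfold, petInner, ← integral_const_mul, ← integral_const_mul]
  refine integral_congr_ae (.of_forall fun u => ?_)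
  simp only [Φ, kerFun, Complex.real_smul, map_mul, map_div₀, map_pow, conj_ofReal, poincareAt]
  rw [Complex.conj_tsum, ← (Equiv.inv Γ).tsum_eq]
  simp only [Equiv.inv_apply, map_inv₀, map_pow, ofReal_mul, ← mul_assoc, tsum_mul_right,
    tsum_mul_left]
  simp only [η]
  field_simp

theorem isOpenPosMeasure_volume : (volume : Measure ℍ).IsOpenPosMeasure := by
  refine ⟨fun U hU hne h0 => ?_⟩
  rw [UpperHalfPlane.volume_eq_lintegral] at h0
  have hm : Measurable fun z : ℂ => (((1 / ‖z.im‖₊) ^ 2 : NNReal) : ℝ≥0∞) := by fun_prop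
  rw [setLIntegral_eq_zero_iff (UpperHalfPlane.measurableEmbedding_coe.measurableSet_image.2
    hU.measurableSet) hm] at h0
  have hpos := (UpperHalfPlane.isOpenEmbedding_coe.isOpenMap U hU).measure_pos volume
    (hne.image _)
  refine hpos.ne' (measure_mono_null (fun z hz => ?_) (ae_iff.1 h0))
  obtain ⟨w, hw, rfl⟩ := hz
  simp only [Set.mem_ofPred_eq, Classical.not_imp]
  exact ⟨⟨w, hw, rfl⟩, by simp [w.im_ne_zero]⟩

variable [CompactSpace (SL(2, ℝ) ⧸ Γ)]

theorem petInner_self (h : IsPartition Γ ψ G) (hf : MDiff f) :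
    0 ≤ (petInner ψ k f f).re ∧ (petInner ψ k f f = 0 → f = 0) := by
  haveI := isOpenPosMeasure_volume
  have e : petInner ψ k f f = ((∫ z : ℍ, ψ z * (z.im ^ k * ‖f z‖ ^ 2) : ℝ) : ℂ) := by
    rw [petInner, ← integral_complex_ofReal]
    refine integral_congr_ae (.of_forall fun z => ?_)
    dsimp only
    rw [mul_comm (conj (f z)), mul_conj, normSq_eq_norm_sq, Complex.real_smul]
    push_cast
    ring
  have hnn : ∀ z : ℍ, 0 ≤ ψ z * (z.im ^ k * ‖f z‖ ^ 2) := fun z => by
    have := h.nonneg z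
    positivity
  refine ⟨by rw [e, ofReal_re]; exact integral_nonneg hnn, fun h0 => ?_⟩
  by_contra hne
  rw [e, ofReal_eq_zero] at h0
  obtain ⟨z, hz⟩ : ∃ z : ℍ, ψ z ≠ 0 ∧ f z ≠ 0 := by
    obtain ⟨γ, hγ⟩ : ∃ γ : Γ, ψ ((γ • UpperHalfPlane.I : ℍ) : ℂ) ≠ 0 := by
      by_contra hne'
      push Not at hne'
      have := (h.hasSum UpperHalfPlane.I).tsum_eq
      simp only [hne', tsum_zero] at this
      exact zero_ne_one this
    set z₁ : ℍ := γ • UpperHalfPlane.I
    by_contra hall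
    push Not at hall
    refine order_ne_top hf hne z₁ (analyticOrderAt_eq_top.2 ?_)
    filter_upwards [(isOpen_ne_fun h.contDiff.continuous continuous_const).mem_nhds hγ,
      isOpen_uhp.mem_nhds z₁.im_pos] with u hu hu'
    rw [Function.comp_apply, ofComplex_apply_of_im_pos hu']
    exact hall ⟨u, hu'⟩ hu
  have hc : Continuous fun w : ℍ => ψ w * (w.im ^ k * ‖f w‖ ^ 2) :=
    h.continuous_restrict.mul ((UpperHalfPlane.continuous_im.pow k).mul
      (hf.continuous.norm.pow 2))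
  refine absurd h0 (hc.integral_pos_of_hasCompactSupport_nonneg_nonzero
    h.hasCompactSupport_restrict.mul_right hnn (x := z) ?_).ne'
  exact mul_ne_zero hz.1 (mul_ne_zero (pow_ne_zero _ z.im_ne_zero)
    (pow_ne_zero _ (norm_ne_zero_iff.2 hz.2)))

theorem isForm_kerFun (hk : 3 ≤ k) (p : ℍ) : IsForm Γ (k : ℤ) (kerFun Γ k p) :=
  (forms Γ (k : ℤ)).smul_mem _ (isForm_poincareAt Γ p.toSL2R⁻¹ hk)

theorem kerFun_self (p : ℍ) :
    (p.im : ℂ) ^ k * kerFun Γ k p p =
      ((k : ℂ) - 1) / (4 * π) * ∑' γ : Γ, qFun (γ : SL(2, ℝ)) p ^ k := by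
  have hs : (Real.sqrt p.im : ℂ) ≠ 0 := ofReal_ne_zero.2 (Real.sqrt_ne_zero'.2 p.im_pos)
  have hy : (p.im : ℂ) = (Real.sqrt p.im : ℂ) * Real.sqrt p.im := by
    rw [← ofReal_mul, Real.mul_self_sqrt p.im_pos.le]
  have e := poincareAt_eq Γ p.toSL2R⁻¹ p.toSL2R k
  rw [toSL2R_smul_I, jac_toSL2R, ofReal_inv] at e
  rw [kerFun, e, poincareVal, hy, ← tsum_mul_left, ← tsum_mul_left, ← tsum_mul_left,
    ← tsum_mul_left]
  refine tsum_congr fun γ => ?_
  simp only [qFun, kerConst, div_pow, mul_pow, inv_pow]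
  field_simp

/-- An orthonormal basis diagonalises the kernel. -/
theorem exists_orthonormal (h : IsPartition Γ ψ G) (hk : 4 ≤ k) :
    ∃ e : Fin (Module.finrank ℂ (forms Γ (k : ℤ))) → ℍ → ℂ,
      (∀ i, IsForm Γ (k : ℤ) (e i)) ∧ (∀ i, petInner ψ k (e i) (e i) = 1) ∧
        ∀ p : ℍ, kerFun Γ k p p = ∑ i, conj (e i p) * e i p := by
  set V := forms Γ (k : ℤ)
  obtain ⟨C, hC⟩ := exists_finrank_le Γ
  haveI : FiniteDimensional ℂ V := (hC (k : ℤ)).1
  letI core : InnerProductSpace.Core ℂ V :=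
    { inner := fun f g => petInner ψ k f.1 g.1
      conj_inner_symm := fun f g => by
        show conj (petInner ψ k g.1 f.1) = _
        rw [petInner, ← integral_conj]
        refine integral_congr_ae (.of_forall fun z => ?_)
        simp [Complex.real_smul, conj_ofReal, mul_comm]
      re_inner_nonneg := fun f => (petInner_self h f.2.1).1
      add_left := fun f₁ f₂ g => by
        show petInner ψ k (f₁ + f₂).1 g.1 = _
        rw [petInner, petInner, petInner, ← integral_add
          (integrable_petInner (k := k) h f₁.2.1 g.2.1)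
          (integrable_petInner (k := k) h f₂.2.1 g.2.1)]
        refine integral_congr_ae (.of_forall fun z => ?_)
        simp [Complex.real_smul]
        ring
      smul_left := fun f g c => by
        show petInner ψ k (c • f).1 g.1 = _
        rw [petInner, petInner, ← integral_const_mul]
        refine integral_congr_ae (.of_forall fun z => ?_)
        simp [Complex.real_smul]
        ring
      definite := fun f h0 => Subtype.ext ((petInner_self h f.2.1).2 h0) }
  letI : NormedAddCommGroup V := core.toNormedAddCommGroup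
  letI : InnerProductSpace ℂ V := InnerProductSpace.ofCore core.toCore
  set e := stdOrthonormalBasis ℂ V
  have hrep : ∀ p : ℍ, kerFun Γ k p p = ∑ i, conj ((e i).1 p) * (e i).1 p := fun p => by
    set B : V := ⟨kerFun Γ k p, isForm_kerFun (by omega) p⟩
    have hcoef : ∀ i, inner ℂ (e i) B = conj ((e i).1 p) := fun i => by
      rw [← inner_conj_symm]
      exact congrArg conj (petInner_kerFun h hk (e i).2 p)
    have hsum := congrArg (fun v : V => v.1 p) (e.sum_repr' B)
    simp only [Submodule.coe_sum, Finset.sum_apply, Submodule.coe_smul, Pi.smul_apply,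
      smul_eq_mul, hcoef] at hsum
    exact hsum.symm
  exact ⟨fun i => (e i).1, fun i => (e i).2, fun i => e.inner_eq_one i, hrep⟩

/-- **The trace identity.** -/
theorem finrank_eq_integral (h : IsPartition Γ ψ G) (hk : 4 ≤ k) :
    (Module.finrank ℂ (forms Γ (k : ℤ)) : ℂ) =
      ((k : ℂ) - 1) / (4 * π) * ∫ z : ℍ, ψ z • ∑' γ : Γ, qFun (γ : SL(2, ℝ)) z ^ k := by
  obtain ⟨e, he, hii, hrep⟩ := exists_orthonormal h hk
  calc (Module.finrank ℂ (forms Γ (k : ℤ)) : ℂ) = ∑ i, petInner ψ k (e i) (e i) := by simp [hii]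
    _ = ∫ z : ℍ, (ψ z * z.im ^ k) • ∑ i, conj (e i z) * e i z := by
        simp only [petInner, Finset.smul_sum]
        exact (integral_finsetSum _ fun i _ => integrable_petInner h (he i).1 (he i).1).symm
    _ = ∫ z : ℍ, ((k : ℂ) - 1) / (4 * π) *
          (ψ z • ∑' γ : Γ, qFun (γ : SL(2, ℝ)) z ^ k) := by
        refine integral_congr_ae (.of_forall fun z => ?_)
        simp only [← hrep]
        rw [mul_smul, Complex.real_smul, Complex.real_smul, ofReal_pow, kerFun_self,
          Complex.real_smul]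
        ring
    _ = _ := integral_const_mul _ _

/-- **The Petersson product on a transversal.** -/
theorem petInner_eq_fundSet (h : IsPartition Γ ψ G) (hf : IsForm Γ (k : ℤ) f)
    (hg : IsForm Γ (k : ℤ) g) {D : Set ℍ} (hD : IsFundSet Γ D) :
    ∫ z in D, (z.im ^ k) • (conj (f z) * g z) = trivCard Γ * petInner ψ k f g := by
  set F : ℍ → ℂ := fun z => z.im ^ k • (conj (f z) * g z) with hFdef
  have hFc : Continuous F := (UpperHalfPlane.continuous_im.pow k).smul
    ((Complex.continuous_conj.comp hf.1.continuous).mul hg.1.continuous)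
  have hFinv : ∀ (γ : Γ) (z : ℍ), F (γ • z) = F z := fun γ z => by
    set δ : SL(2, ℝ) := (γ : SL(2, ℝ))
    have hne := jac_ne_zero δ z.im_ne_zero
    have hne' : conj (jac δ z) ≠ 0 := (map_ne_zero _).2 hne
    simp only [hFdef, Subgroup.smul_def]
    rw [hf.2 δ γ.2 z, hg.2 δ γ.2 z, im_smul_sl]
    simp only [Complex.real_smul, ofReal_pow, ofReal_div, map_mul, map_pow, zpow_natCast]
    rw [← ofReal_pow ‖jac δ z‖, ← normSq_eq_norm_sq, ← mul_conj]
    simp only [div_pow, mul_pow]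
    field_simp
  obtain ⟨M, hM⟩ := (isCompact_coreSet Γ).exists_bound_of_continuousOn hFc.continuousOn
  have hMall : ∀ z, ‖F z‖ ≤ M := fun z => by
    obtain ⟨γ, hγ, hz⟩ := exists_mem_coreSet Γ z
    rw [← hFinv ⟨γ, hγ⟩ z]
    exact hM _ hz
  have hreal : ∀ R : ℍ → ℝ, Continuous R → (∀ (γ : Γ) z, R (γ • z) = R z) →
      (∀ z, |R z| ≤ M) → ∫ z in D, R z = trivCard Γ * ∫ z : ℍ, ψ z * R z := by
    intro R hR hinv hb
    have hvol : volume D < ⊤ := by
      rw [volume_eq_area Γ hD]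
      exact ENNReal.ofReal_lt_top
    have hRD : IntegrableOn R D := IntegrableOn.of_bound hvol hR.aestronglyMeasurable M
      (.of_forall hb)
    have hcD : IntegrableOn (fun _ => M) D := integrableOn_const hvol.ne
    have hψR : Integrable fun z : ℍ => ψ z * R z := integrable_partition_mul h hR
    have hpos : ∀ z, 0 ≤ R z + M := fun z => by linarith [(abs_le.1 (hb z)).1]
    have hψpos : ∀ z : ℍ, 0 ≤ ψ z * (R z + M) := fun z => mul_nonneg (h.nonneg _) (hpos z)
    have h1 : ∫ z in D, (R z + M) = trivCard Γ * ∫ z : ℍ, ψ z * (R z + M) := by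
      rw [integral_eq_lintegral_of_nonneg_ae (.of_forall hpos)
        (hR.add continuous_const).aestronglyMeasurable,
        integral_eq_lintegral_of_nonneg_ae (.of_forall hψpos)
          (h.continuous_restrict.mul (hR.add continuous_const)).aestronglyMeasurable,
        lintegral_fundSet (F := fun z => ENNReal.ofReal (R z + M)) h hD
          (ENNReal.measurable_ofReal.comp (hR.add continuous_const).measurable)
          (fun γ z => by simp only [hinv]),
        ENNReal.toReal_mul, ENNReal.toReal_natCast]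
      simp only [ENNReal.ofReal_mul (h.nonneg _)]
    simp only [mul_add] at h1
    rw [integral_add hRD hcD, setIntegral_const, integral_add hψR (h.integrable.mul_const M),
      integral_mul_const, smul_eq_mul, measureReal_def, volume_fundSet h hD,
      ENNReal.toReal_ofReal (mul_nonneg (Nat.cast_nonneg _) h.integral_pos.le)] at h1
    linarith
  have hFD : IntegrableOn F D := IntegrableOn.of_bound
    (by rw [volume_eq_area Γ hD]; exact ENNReal.ofReal_lt_top) hFc.aestronglyMeasurable M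
    (.of_forall hMall)
  have hψF := integrable_partition_mul h hFc
  have e : petInner ψ k f g = ∫ z : ℍ, ψ z • F z := by simp only [petInner, F, mul_smul]
  rw [e]
  apply Complex.ext
  · rw [← RCLike.re_to_complex, ← integral_re hFD, ← RCLike.re_to_complex]
    simp only [RCLike.re_to_complex, mul_re, natCast_re, natCast_im, zero_mul, sub_zero]
    rw [← RCLike.re_to_complex, ← integral_re hψF]
    simp only [RCLike.re_to_complex, Complex.real_smul, re_ofReal_mul]
    exact hreal _ (Complex.continuous_re.comp hFc) (fun γ z => congrArg Complex.re (hFinv γ z))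
      fun z => (abs_re_le_norm _).trans (hMall z)
  · rw [← RCLike.im_to_complex, ← integral_im hFD, ← RCLike.im_to_complex]
    simp only [RCLike.im_to_complex, mul_im, natCast_re, natCast_im, zero_mul, add_zero]
    rw [← RCLike.im_to_complex, ← integral_im hψF]
    simp only [RCLike.im_to_complex, Complex.real_smul, im_ofReal_mul]
    exact hreal _ (Complex.continuous_im.comp hFc) (fun γ z => congrArg Complex.im (hFinv γ z))
      fun z => (abs_im_le_norm _).trans (hMall z)

/-- **The trace identity on a transversal.** -/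
theorem finrank_eq_integral_fundSet (h : IsPartition Γ ψ G) (hk : 4 ≤ k) {D : Set ℍ}
    (hD : IsFundSet Γ D) :
    ∫ z in D, z.im ^ k • kerFun Γ k z z =
      trivCard Γ * (Module.finrank ℂ (forms Γ (k : ℤ)) : ℂ) := by
  obtain ⟨e, he, hii, hrep⟩ := exists_orthonormal h hk
  simp only [hrep, Finset.smul_sum]
  rw [integral_finsetSum _ fun i _ => ?_]
  · rw [Finset.sum_congr rfl fun i _ => petInner_eq_fundSet h (he i) (he i) hD]
    simp [hii, mul_comm]
  · refine IntegrableOn.congr_fun (f := fun z : ℍ => ((pet (k : ℤ) (e i) z ^ 2 : ℝ) : ℂ)) ?_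
      (fun z _ => ?_) hD.1
    · obtain ⟨z₀, hz₀⟩ := exists_max_pet (he i)
      refine IntegrableOn.of_bound (by rw [volume_eq_area Γ hD]; exact ENNReal.ofReal_lt_top)
        (Complex.continuous_ofReal.comp ((continuous_pet (he i).1).pow 2)).aestronglyMeasurable
        (pet (k : ℤ) (e i) z₀ ^ 2) (.of_forall fun z => ?_)
      rw [Complex.norm_real, norm_pow, Real.norm_eq_abs, abs_of_nonneg (pet_nonneg _ _ _)]
      exact pow_le_pow_left₀ (pet_nonneg _ _ _) (hz₀ z) 2
    · simp only [pet]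
      rw [zpow_natCast, mul_pow, ← pow_mul, mul_comm k, pow_mul, Real.sq_sqrt z.im_pos.le,
        mul_comm (conj (e i z)), mul_conj, normSq_eq_norm_sq, Complex.real_smul, ofReal_mul]

end FA.CocompactGaussBonnet

end
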