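import Fermat.Agent.CocompactGaussBonnet.Elliptic
import Fermat.Agent.CocompactDegree.Applications

/-!
# The dimension for large weights

In the trace identity the terms which fix no point of the support of the partition decay
geometrically, the others concentrate at their fixed points.
-/

set_option autoImplicit false
set_option linter.unusedSectionVars false
set_option linter.style.haveILetI false

noncomputable section

open MeasureTheory Set Filter Topology Complex
open UpperHalfPlane hiding I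
open FA.CocompactForms FA.CocompactFunctions FA.CocompactDegree FA.SLnCount
open scoped MatrixGroups Manifold Real ComplexConjugate

namespace FA.CocompactGaussBonnet

theorem continuous_normSq_toSL2R :
    Continuous fun z : ℍ => normSqSL z.toSL2R * normSqSL z.toSL2R⁻¹ := by
  have hc : ∀ i j : Fin 2, Continuous fun g : SL(2, ℝ) => g i j := fun i j =>
    (continuous_apply j).comp ((continuous_apply i).comp continuous_subtype_val)
  have hn : Continuous fun g : SL(2, ℝ) => normSqSL g := by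
    simp only [normSqSL_eq, matSq]
    exact continuous_finsetSum _ fun i _ => continuous_finsetSum _ fun j _ => (hc i j).pow 2
  exact (hn.comp UpperHalfPlane.continuous_toSL2R).mul
    (hn.comp UpperHalfPlane.continuous_toSL2R.inv)

theorem norm_qFun (g : SL(2, ℝ)) (z : ℍ) :
    ‖qFun g z‖ = 2 / Real.sqrt (normSqSL (z.toSL2R⁻¹ * g * z.toSL2R) + 2) := by
  rw [qFun, norm_div, ← normSq_seed_I, Real.sqrt_sq (norm_nonneg _)]
  simp

theorem norm_qFun_lt_one {g : SL(2, ℝ)} {z : ℍ} (h : g • z ≠ z) : ‖qFun g z‖ < 1 := by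
  have h2 := two_le_normSqSL (z.toSL2R⁻¹ * g * z.toSL2R)
  have hne : normSqSL (z.toSL2R⁻¹ * g * z.toSL2R) ≠ 2 := fun he => h (by
    rw [normSqSL_eq_two_iff, mul_smul, mul_smul, toSL2R_smul_I, inv_smul_eq_iff,
      toSL2R_smul_I] at he
    exact he)
  rw [norm_qFun, div_lt_one (Real.sqrt_pos.2 (by linarith)), Real.lt_sqrt zero_le_two]
  linarith [lt_of_le_of_ne h2 (Ne.symm hne)]

theorem norm_qFun_le {g : SL(2, ℝ)} {z : ℍ} {c : ℝ}
    (hc : normSqSL z.toSL2R * normSqSL z.toSL2R⁻¹ ≤ c) :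
    ‖qFun g z‖ ≤ 2 * Real.sqrt c * (Real.sqrt (normSqSL g))⁻¹ := by
  set w := z.toSL2R⁻¹ * g * z.toSL2R
  have hw := two_le_normSqSL w
  have hg := two_le_normSqSL g
  have hle : normSqSL g ≤ c * normSqSL w := by
    have h1 := normSqSL_mul_le (z.toSL2R * w) z.toSL2R⁻¹
    have h2 := normSqSL_mul_le z.toSL2R w
    rw [show z.toSL2R * w * z.toSL2R⁻¹ = g by simp only [w]; group] at h1
    nlinarith [two_le_normSqSL z.toSL2R⁻¹]
  have hc0 : 0 < c := by nlinarith [two_le_normSqSL z.toSL2R, two_le_normSqSL z.toSL2R⁻¹]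
  rw [norm_qFun, ← div_eq_mul_inv, div_le_div_iff₀ (Real.sqrt_pos.2 (by linarith))
    (Real.sqrt_pos.2 (by linarith)), mul_assoc, ← Real.sqrt_mul hc0.le]
  exact mul_le_mul_of_nonneg_left (Real.sqrt_le_sqrt (by nlinarith)) zero_le_two

variable {Γ : Subgroup SL(2, ℝ)} [DiscreteTopology Γ] {ψ : ℂ → ℝ} {G : Finset Γ}

/-- **A term concentrates at its fixed point.** -/
theorem tendsto_orbital (h : IsPartition Γ ψ G) {g : SL(2, ℝ)} {p : ℍ} (hg : g • p = p)
    (h1 : etaOf g p ≠ 1) :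
    Tendsto (fun m : ℕ => (2 * (m : ℂ) + 1) / (4 * π) *
        (∫ z : ℍ, ψ z • qFun g z ^ (2 * (m + 1))) -
          ψ p * (etaOf g p ^ (m + 1) / (1 - etaOf g p))) atTop (𝓝 0) := by
  set η := etaOf g p
  have hη : ‖η‖ = 1 := norm_etaOf hg
  set Φ : ℂ → ℂ := fun w => (ψ ((p.toSL2R • ofComplex (cay w) : ℍ) : ℂ) : ℂ) with hΦdef
  obtain ⟨M, hM⟩ := h.contDiff.continuous.bounded_above_of_compact_support h.compact
  have hΦc : ContinuousOn Φ (Metric.ball 0 1) := by
    refine fun w hw => ContinuousAt.continuousWithinAt ?_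
    have hw' := mem_ball_zero_iff.1 hw
    have h1' : ContinuousAt cay w :=
      ((continuousAt_const.mul (continuousAt_const.add continuousAt_id)).div
        (continuousAt_const.sub continuousAt_id) (one_sub_ne_zero hw'))
    have h2 : ContinuousAt ofComplex (cay w) :=
      ofComplex.continuousAt (by simpa [ofComplex] using im_cay_pos hw')
    exact Complex.continuous_ofReal.continuousAt.comp (h.contDiff.continuous.continuousAt.comp
      (UpperHalfPlane.continuous_coe.continuousAt.comp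
        ((continuous_const_smul p.toSL2R).continuousAt.comp (h2.comp h1'))))
  have h0 : Φ 0 = ψ p := by
    simp only [hΦdef, cay_zero]
    rw [← UpperHalfPlane.coe_I, ofComplex_apply, toSL2R_smul_I]
  have hlim := (tendsto_rotKernel hη h1 hΦc (M := M) fun w _ => by
    simpa [hΦdef] using hM _).comp (tendsto_id.const_mul_atTop' two_pos)
  rw [← tendsto_sub_nhds_zero_iff, tendsto_zero_iff_norm_tendsto_zero] at hlim
  rw [tendsto_zero_iff_norm_tendsto_zero]
  refine hlim.congr fun m => ?_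
  have hint : ∫ z : ℍ, ψ z • qFun g z ^ (2 * (m + 1)) =
      4 * η ^ (m + 1) * ∫ w in Metric.ball 0 1, Φ w * rotKernel η (2 * m) w := by
    rw [← (measurePreserving_sl p.toSL2R).integral_comp (measurableEmbedding_sl _), integral_cay,
      ← integral_const_mul]
    refine setIntegral_congr_fun measurableSet_ball fun w hw => ?_
    have hw' := mem_ball_zero_iff.1 hw
    simp only [hΦdef, ofComplex_apply_of_im_pos (im_cay_pos hw')]
    rw [pow_mul, qFun_cay hg hw', mul_pow, rotKernel, Complex.real_smul, Complex.real_smul]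
    have hlt : (1 : ℂ) - ((‖w‖ ^ 2 : ℝ) : ℂ) ≠ 0 := by
      rw [← ofReal_one, ← ofReal_sub]
      exact ofReal_ne_zero.2 (by nlinarith [norm_nonneg w])
    have hne := one_sub_mul_ne_zero hη h1 (sq_nonneg ‖w‖)
    push_cast at hlt hne ⊢
    rw [← pow_mul, div_pow, show 2 * (m + 1) = 2 * m + 2 by ring, pow_add (1 - (‖w‖ : ℂ) ^ 2)]
    simp only [η] at hne ⊢
    field_simp
  rw [hint, ← h0]
  simp only [Function.comp_apply, id]
  rw [show (2 * (m : ℂ) + 1) / (4 * π) *
      (4 * η ^ (m + 1) * ∫ w in Metric.ball 0 1, Φ w * rotKernel η (2 * m) w) -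
      Φ 0 * (η ^ (m + 1) / (1 - η)) = η ^ (m + 1) * (((2 * m : ℕ) : ℂ) + 1) / π *
        (∫ w in Metric.ball 0 1, Φ w * rotKernel η (2 * m) w) -
      η ^ (m + 1) * (Φ 0 / (1 - η)) by push_cast; ring, mul_div_assoc, mul_assoc, ← mul_sub,
    norm_mul, norm_pow, hη, one_pow, one_mul]

variable [CompactSpace (SL(2, ℝ) ⧸ Γ)]

/-- The sum over the elliptic orbits. -/
def ellipticSum (Γ : Subgroup SL(2, ℝ)) [DiscreteTopology Γ] [CompactSpace (SL(2, ℝ) ⧸ Γ)]
    (m : ℕ) : ℂ :=
  ∑ x ∈ (finite_elliptic Γ).toFinset, rootSum (ramIndex Γ x.out) m / ramIndex Γ x.out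

/-- **The dimension for large weights.** -/
theorem tendsto_finrank (Γ : Subgroup SL(2, ℝ)) [DiscreteTopology Γ]
    [CompactSpace (SL(2, ℝ) ⧸ Γ)] :
    Tendsto (fun m : ℕ => (Module.finrank ℂ (forms Γ ((2 * m : ℕ) : ℤ)) : ℂ) -
      ((2 * (m : ℂ) - 1) * area Γ / (4 * π) + ellipticSum Γ m)) atTop (𝓝 0) := by
  classical
  obtain ⟨ψ, G, h⟩ := exists_partition Γ
  set K : Set ℍ := ((↑) : ℍ → ℂ) ⁻¹' tsupport ψ with hKdef
  have hK : IsCompact K := UpperHalfPlane.isEmbedding_coe.isInducing.isCompact_preimage'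
    h.compact.isCompact (h.subset.trans_eq UpperHalfPlane.range_coe.symm)
  have hKψ : ∀ z : ℍ, ψ z ≠ 0 → z ∈ K := fun z hz => subset_closure hz
  have hSfin : {γ : Γ | γ ∉ triv Γ ∧ ∃ z ∈ K, γ • z = z}.Finite :=
    (finite_returns Γ hK hK).subset fun γ ⟨_, z, hz, hfix⟩ => ⟨z, hz, by rwa [hfix]⟩
  set S := hSfin.toFinset with hS
  haveI : Finite (triv Γ) := (Nat.card_pos_iff.1 (trivCard_pos Γ)).2
  set Z : Finset Γ := (Set.toFinite (triv Γ : Set Γ)).toFinset with hZ
  have hdisj : Disjoint Z S := Finset.disjoint_left.2 fun γ h1 h2 => by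
    rw [Set.Finite.mem_toFinset] at h1 h2
    exact h2.1 h1
  have hZcard : Z.card = trivCard Γ :=
    (Set.ncard_eq_toFinset_card _ _).symm.trans (Nat.card_coe_set_eq _).symm
  -- bounds
  obtain ⟨c, hc⟩ := hK.exists_bound_of_continuousOn continuous_normSq_toSL2R.continuousOn
  set v : Γ → ℝ := fun γ => 2 * Real.sqrt c * (Real.sqrt (normSqSL (γ : SL(2, ℝ))))⁻¹ with hv
  have hqv : ∀ (γ : Γ), ∀ z ∈ K, ‖qFun (γ : SL(2, ℝ)) z‖ ≤ v γ := fun γ z hz =>
    norm_qFun_le ((le_abs_self _).trans ((Real.norm_eq_abs _).symm.trans_le (hc z hz)))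
  have hv0 : ∀ γ, 0 ≤ v γ ^ 3 := fun γ => by simp only [hv]; positivity
  have hvs : Summable fun γ => v γ ^ 3 := by
    simp only [hv, mul_pow _ _ 3]
    exact (summable_normSqSL Γ).mul_left _
  set B := (finite_normSqSL_le Γ (16 * c)).toFinset
  set P : Set ℝ := insert (1 / 2) (⋃ γ ∈ ((B \ (Z ∪ S) : Finset Γ) : Set Γ),
    (fun z => ‖qFun (γ : SL(2, ℝ)) z‖) '' K)
  have hP : IsCompact P := ((B \ (Z ∪ S)).finite_toSet.isCompact_biUnion fun γ _ =>
    hK.image (continuous_qFun _).norm).insert _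
  obtain ⟨ρ, hρP, hρ⟩ := hP.exists_isGreatest ⟨_, mem_insert _ _⟩
  have hfree : ∀ γ : Γ, γ ∉ Z ∪ S → ∀ z ∈ K, γ • z ≠ z := fun γ hγ z hz hfix => by
    rw [Finset.mem_union, not_or, hZ, hS, Set.Finite.mem_toFinset, Set.Finite.mem_toFinset] at hγ
    exact hγ.2 ⟨hγ.1, z, hz, hfix⟩
  have hρhalf : 1 / 2 ≤ ρ := hρ (mem_insert _ _)
  have hρ1 : ρ < 1 := by
    rcases hρP with rfl | hmem
    · norm_num
    · obtain ⟨γ, hγ, z, hz, rfl⟩ := mem_iUnion₂.1 hmem
      exact norm_qFun_lt_one (hfree γ (Finset.mem_sdiff.1 hγ).2 z hz)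
  have hqρ : ∀ γ : Γ, γ ∉ Z ∪ S → ∀ z ∈ K, ‖qFun (γ : SL(2, ℝ)) z‖ ≤ ρ := fun γ hγ z hz => by
    by_cases hB : γ ∈ B
    · exact hρ (mem_insert_of_mem _ (mem_iUnion₂.2
        ⟨γ, Finset.mem_sdiff.2 ⟨hB, hγ⟩, z, hz, rfl⟩))
    · refine (hqv γ z hz).trans (le_trans ?_ hρhalf)
      rw [Set.Finite.mem_toFinset, Set.mem_ofPred_eq, not_le] at hB
      have hn := two_le_normSqSL (γ : SL(2, ℝ))
      simp only [hv]
      rw [← div_eq_mul_inv, div_le_iff₀ (Real.sqrt_pos.2 (by linarith))]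
      have hc0 : 0 ≤ c := (norm_nonneg _).trans (hc z hz)
      have e : Real.sqrt (16 * c) ≤ Real.sqrt (normSqSL (γ : SL(2, ℝ))) :=
        Real.sqrt_le_sqrt hB.le
      rw [Real.sqrt_mul (by norm_num), show (16 : ℝ) = 4 ^ 2 by norm_num,
        Real.sqrt_sq (by norm_num)] at e
      linarith
  -- the integrand
  have hsummable : ∀ k, 3 ≤ k → ∀ z ∈ K,
      Summable fun γ : Γ => qFun (γ : SL(2, ℝ)) z ^ k := fun k hk z hz => by
    refine Summable.of_norm_bounded_eventually hvs ((finite_normSqSL_le Γ (4 * c)).subset ?_)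
    intro γ hγ
    by_contra hbig
    simp only [Set.mem_ofPred_eq, not_le] at hbig
    refine hγ ?_
    show ‖qFun (γ : SL(2, ℝ)) z ^ k‖ ≤ v γ ^ 3
    rw [norm_pow]
    refine (pow_le_pow_left₀ (norm_nonneg _) (hqv γ z hz) k).trans
      (pow_le_pow_of_le_one (by positivity) ?_ hk)
    have hn := two_le_normSqSL (γ : SL(2, ℝ))
    have hc0 : 0 ≤ c := (norm_nonneg _).trans (hc z hz)
    simp only [hv]
    rw [← div_eq_mul_inv, div_le_iff₀ (Real.sqrt_pos.2 (by linarith)), one_mul]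
    refine le_of_eq_of_le ?_ (Real.sqrt_le_sqrt hbig.le)
    rw [Real.sqrt_mul (by norm_num), show (4 : ℝ) = 2 ^ 2 by norm_num,
      Real.sqrt_sq (by norm_num)]
  set tail : ℕ → ℍ → ℂ := fun k z => ψ z • ((∑' γ : Γ, qFun (γ : SL(2, ℝ)) z ^ k) -
    ∑ γ ∈ Z ∪ S, qFun (γ : SL(2, ℝ)) z ^ k) with htail
  have htail_le : ∀ k, 3 ≤ k → ∀ z : ℍ,
      ‖tail k z‖ ≤ ψ z * (ρ ^ (k - 3) * ∑' γ, v γ ^ 3) := fun k hk z => by
    rcases eq_or_ne (ψ z) 0 with h0 | h0
    · simp [htail, h0]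
    have hz := hKψ z h0
    rw [htail, norm_smul, Real.norm_eq_abs, abs_of_nonneg (h.nonneg _)]
    refine mul_le_mul_of_nonneg_left ?_ (h.nonneg _)
    rw [← (hsummable k hk z hz).sum_add_tsum_compl (s := Z ∪ S), add_sub_cancel_left,
      ← tsum_mul_left]
    refine le_trans (tsum_of_norm_bounded ((hvs.mul_left (ρ ^ (k - 3))).subtype
      ((↑(Z ∪ S) : Set Γ)ᶜ)).hasSum fun γ => ?_)
      (Summable.tsum_subtype_le (fun γ => ρ ^ (k - 3) * v γ ^ 3) ((↑(Z ∪ S) : Set Γ)ᶜ)
        (fun γ => mul_nonneg (pow_nonneg (le_trans (by norm_num) hρhalf) _) (hv0 γ))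
        (hvs.mul_left _))
    simp only [Function.comp_apply, norm_pow]
    calc ‖qFun ((γ : Γ) : SL(2, ℝ)) z‖ ^ k
        = ‖qFun ((γ : Γ) : SL(2, ℝ)) z‖ ^ (k - 3) * ‖qFun ((γ : Γ) : SL(2, ℝ)) z‖ ^ 3 := by
          rw [← pow_add, Nat.sub_add_cancel hk]
      _ ≤ _ := mul_le_mul (pow_le_pow_left₀ (norm_nonneg _) (hqρ _ γ.2 z hz) _)
          (pow_le_pow_left₀ (norm_nonneg _) (hqv _ z hz) _) (by positivity) (by positivity)
  have hfull : ∀ k, 4 ≤ k →
      Integrable fun z : ℍ => ψ z • ∑' γ : Γ, qFun (γ : SL(2, ℝ)) z ^ k := fun k hk => by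
    obtain ⟨e, he, -, hrep⟩ := exists_orthonormal h hk
    refine integrable_partition_mul h ?_
    have hk1 : ((k : ℂ) - 1) / (4 * π) ≠ 0 := div_ne_zero (sub_ne_zero.2 (by
      exact_mod_cast (by omega : k ≠ 1))) (by simp [Real.pi_pos.ne'])
    rw [show (fun z : ℍ => ∑' γ : Γ, qFun (γ : SL(2, ℝ)) z ^ k) = fun z : ℍ =>
        (((k : ℂ) - 1) / (4 * π))⁻¹ * ((z.im : ℂ) ^ k * ∑ i, conj (e i z) * e i z) from
      funext fun z => by rw [← hrep, kerFun_self, inv_mul_cancel_left₀ hk1]]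
    exact continuous_const.mul (((Complex.continuous_ofReal.comp
      UpperHalfPlane.continuous_im).pow k).mul (continuous_finsetSum _ fun i _ =>
        (Complex.continuous_conj.comp (he i).1.continuous).mul (he i).1.continuous))
  have hfin : ∀ (k : ℕ) (γ : Γ), Integrable fun z : ℍ => ψ z • qFun (γ : SL(2, ℝ)) z ^ k :=
    fun k γ => integrable_partition_mul h ((continuous_qFun _).pow k)
  have htaili : ∀ k, 4 ≤ k → Integrable (tail k) := fun k hk => by
    simp only [htail, smul_sub, Finset.smul_sum]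
    exact (hfull k hk).sub (integrable_finsetSum _ fun γ _ => hfin k γ)
  -- the fixed points
  have hchoose : ∀ γ ∈ S, ∃ p ∈ K, γ • p = p := fun γ hγ =>
    (hSfin.mem_toFinset.1 hγ).2
  choose! pt hptK hpt using hchoose
  set F : Γ → ℕ → ℂ := fun γ m => ψ (pt γ) *
    (etaOf (γ : SL(2, ℝ)) (pt γ) ^ m / (1 - etaOf (γ : SL(2, ℝ)) (pt γ)))
  -- regrouping by orbits
  have hgroup : ∀ m, ∑ γ ∈ S, F γ m = ellipticSum Γ m := fun m => by
    haveI : ∀ p : ℍ, Fintype (MulAction.stabilizer Γ p) := fun p => Fintype.ofFinite _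
    set T := (finite_fixed_in_compact Γ hK).toFinset
    have h1 : ∑ γ ∈ S, F γ m = ∑ p ∈ T, (ψ p : ℂ) * (trivCard Γ * rootSum (ramIndex Γ p) m) := by
      simp only [← sum_stabilizer, Finset.mul_sum]
      rw [Finset.sum_sigma']
      refine (Finset.sum_filter_of_ne (p := fun x => (x.2 : Γ) ∉ triv Γ) ?_).symm.trans ?_ |>.symm
      · intro x _ hne htriv
        refine hne ?_
        have e := (etaHom_eq_one_iff Γ x.1 x.2).2 htriv
        rw [show etaOf ((x.2 : Γ) : SL(2, ℝ)) x.1 = 1 from congrArg Units.val e]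
        simp
      refine Finset.sum_bij (fun x _ => (x.2 : Γ)) ?_ ?_ ?_ ?_
      · intro x hx
        simp only [Finset.mem_filter, Finset.mem_sigma] at hx
        exact hSfin.mem_toFinset.2 ⟨hx.2, x.1,
          ((finite_fixed_in_compact Γ hK).mem_toFinset.1 hx.1.1).2, x.2.2⟩
      · intro x hx y hy hxy
        simp only [Finset.mem_filter, Finset.mem_sigma] at hx
        have hpq : x.1 = y.1 := fixSet_subsingleton Γ hx.2 x.2.2
          (show (x.2 : Γ) • y.1 = y.1 by rw [hxy]; exact y.2.2)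
        obtain ⟨p, a⟩ := x
        obtain ⟨q, b⟩ := y
        obtain rfl : p = q := hpq
        obtain rfl : a = b := Subtype.ext hxy
        rfl
      · intro γ hγ
        have hγ' := hSfin.mem_toFinset.1 hγ
        refine ⟨⟨pt γ, γ, hpt γ hγ⟩, ?_, rfl⟩
        simp only [Finset.mem_filter, Finset.mem_sigma, Finset.mem_univ, and_true]
        exact ⟨(finite_fixed_in_compact Γ hK).mem_toFinset.2
          ⟨⟨γ, hpt γ hγ, hγ'.1⟩, hptK γ hγ⟩, hγ'.1⟩
      · intro x hx
        simp only [Finset.mem_filter, Finset.mem_sigma] at hx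
        have hmem : (x.2 : Γ) ∈ S := hSfin.mem_toFinset.2 ⟨hx.2, x.1,
          ((finite_fixed_in_compact Γ hK).mem_toFinset.1 hx.1.1).2, x.2.2⟩
        simp only [F, show pt (x.2 : Γ) = x.1 from
          fixSet_subsingleton Γ hx.2 (hpt _ hmem) x.2.2]
    rw [h1, ellipticSum]
    set π' : ℍ → Orb Γ := Quotient.mk''
    have hout : ∀ p : ℍ, (π' p).out ∈ MulAction.orbit Γ p :=
      fun p => Quotient.mk_out (s := MulAction.orbitRel Γ ℍ) p
    have hram : ∀ p : ℍ, ramIndex Γ (π' p).out = ramIndex Γ p := fun p => by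
      obtain ⟨δ, hδ⟩ := hout p
      rw [← hδ, ramIndex_smul δ p]
    rw [← Finset.sum_fiberwise_of_maps_to (g := π') (t := (finite_elliptic Γ).toFinset)
      fun p hp => (finite_elliptic Γ).mem_toFinset.2 (by
        show ramIndex Γ (π' p).out ≠ 1
        rw [hram, ramIndex_ne_one_iff]
        exact ((finite_fixed_in_compact Γ hK).mem_toFinset.1 hp).1)]
    refine Finset.sum_congr rfl fun x hx => ?_
    have hxfix := (ramIndex_ne_one_iff Γ _).1 ((finite_elliptic Γ).mem_toFinset.1 hx)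
    have h2 := card_stab_mul_sum h x.out (T.filter fun p => π' p = x) (fun p hp => by
      have h' := hout p
      rw [(Finset.mem_filter.1 hp).2] at h'
      exact MulAction.mem_orbit_symm.1 h') fun γ hγ => Finset.mem_filter.2
      ⟨(finite_fixed_in_compact Γ hK).mem_toFinset.2 ⟨smul_mem_fixSet Γ hxfix γ, hKψ _ hγ⟩,
        (Quotient.sound' (MulAction.mem_orbit _ γ)).trans x.out_eq'⟩
    refine (Finset.sum_congr rfl (g := fun p : ℍ => (ψ (p : ℂ) : ℂ) *
      (trivCard Γ * rootSum (ramIndex Γ x.out) m)) fun p hp => by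
        rw [← hram p, (Finset.mem_filter.1 hp).2]).trans ?_
    rw [← Finset.sum_mul]
    rw [← ramIndex_mul] at h2
    have h3 : (ramIndex Γ x.out : ℂ) * trivCard Γ *
        ∑ p ∈ T with π' p = x, (ψ p : ℂ) = 1 := by
      rw [← ofReal_sum]
      exact_mod_cast h2
    rw [eq_div_iff (Nat.cast_ne_zero.2 (ramIndex_pos Γ _).ne')]
    linear_combination rootSum (ramIndex Γ x.out) m * h3
  -- the limit
  rw [← tendsto_add_atTop_iff_nat 1]
  have hlim : Tendsto (fun m : ℕ => (2 * (m : ℂ) + 1) / (4 * π) * (∫ z, tail (2 * (m + 1)) z) +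
      ∑ γ ∈ S, ((2 * (m : ℂ) + 1) / (4 * π) *
        (∫ z : ℍ, ψ z • qFun (γ : SL(2, ℝ)) z ^ (2 * (m + 1))) - F γ (m + 1))) atTop (𝓝 0) := by
    rw [show (0 : ℂ) = 0 + ∑ γ ∈ S, 0 by simp]
    refine Tendsto.add ?_ (tendsto_finsetSum S fun γ hγ =>
      tendsto_orbital h (hpt γ hγ) fun he => ?_)
    · rw [tendsto_zero_iff_norm_tendsto_zero]
      have hρ0 : 0 ≤ ρ := le_trans (by norm_num) hρhalf
      have hb : ∀ m : ℕ, 1 ≤ m → ‖(2 * (m : ℂ) + 1) / (4 * π) * ∫ z, tail (2 * (m + 1)) z‖ ≤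
          (2 * (m : ℝ) + 1) * ρ ^ (m - 1) *
            ((∫ z : ℍ, ψ z) * (∑' γ, v γ ^ 3) / (4 * π)) := fun m hm => by
        have h4 : 4 ≤ 2 * (m + 1) := by omega
        have := norm_integral_le_of_norm_le (h.integrable.mul_const _)
          (.of_forall (htail_le (2 * (m + 1)) (by omega)))
        rw [integral_mul_const] at this
        rw [norm_mul, norm_div,
          show ‖2 * (m : ℂ) + 1‖ = 2 * (m : ℝ) + 1 by
            rw [show (2 * (m : ℂ) + 1) = ((2 * m + 1 : ℕ) : ℂ) by push_cast; ring,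
              Complex.norm_natCast]
            push_cast
            ring,
          show ‖(4 : ℂ) * π‖ = 4 * π by simp [abs_of_pos Real.pi_pos]]
        refine (mul_le_mul_of_nonneg_left this (by positivity)).trans ?_
        have hpw : ρ ^ (2 * (m + 1) - 3) ≤ ρ ^ (m - 1) :=
          pow_le_pow_of_le_one hρ0 hρ1.le (by omega)
        have hV : 0 ≤ (2 * (m : ℝ) + 1) * ((∫ z : ℍ, ψ z) * (∑' γ, v γ ^ 3) / (4 * π)) :=
          mul_nonneg (by positivity) (div_nonneg (mul_nonneg h.integral_pos.le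
            (tsum_nonneg hv0)) (by positivity))
        calc _ = (2 * (m : ℝ) + 1) * ((∫ z : ℍ, ψ z) * (∑' γ, v γ ^ 3) / (4 * π)) *
              ρ ^ (2 * (m + 1) - 3) := by ring
          _ ≤ _ := (mul_le_mul_of_nonneg_left hpw hV).trans_eq (by ring)
      refine squeeze_zero' (.of_forall fun m => norm_nonneg _)
        ((eventually_ge_atTop 1).mono hb) ?_
      rw [← tendsto_add_atTop_iff_nat 1]
      have h1 := ((tendsto_self_mul_const_pow_of_lt_one hρ0 hρ1).const_mul 2).add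
        ((tendsto_pow_atTop_nhds_zero_of_lt_one hρ0 hρ1).const_mul 3)
      have h2 := h1.mul_const ((∫ z : ℍ, ψ z) * (∑' γ, v γ ^ 3) / (4 * π))
      simp only [mul_zero, add_zero, zero_mul] at h2
      refine h2.congr fun m => ?_
      rw [Nat.add_sub_cancel]
      push_cast
      ring
    · have hmem := hSfin.mem_toFinset.1 hγ
      exact hmem.1 ((mem_triv Γ).2 fun z => smul_eq_of_etaOf_eq_one (hpt γ hγ) he z)
  refine hlim.congr' ((eventually_ge_atTop 1).mono fun m hm => ?_)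
  have h4 : 4 ≤ 2 * (m + 1) := by omega
  rw [Finset.sum_sub_distrib, hgroup]
  have hψc : Integrable fun z : ℍ => (ψ z : ℂ) := h.integrable.ofReal
  have hsplit : ∫ z : ℍ, ψ z • ∑' γ : Γ, qFun (γ : SL(2, ℝ)) z ^ (2 * (m + 1)) =
      (∫ z, tail (2 * (m + 1)) z) + trivCard Γ * ((∫ z : ℍ, ψ z : ℝ) : ℂ) +
        ∑ γ ∈ S, ∫ z : ℍ, ψ z • qFun (γ : SL(2, ℝ)) z ^ (2 * (m + 1)) := by
    rw [← integral_finsetSum _ fun γ _ => hfin _ γ, ← integral_complex_ofReal,
      ← integral_const_mul, ← integral_add (htaili _ h4) (hψc.const_mul _),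
      ← integral_add ((htaili _ h4).fun_add (hψc.const_mul _))
        (integrable_finsetSum _ fun γ _ => hfin _ γ)]
    refine integral_congr_ae (.of_forall fun z => ?_)
    have hone : ∀ γ ∈ Z, qFun (γ : SL(2, ℝ)) z ^ (2 * (m + 1)) = 1 := fun γ hγ => by
      rw [pow_mul, qFun_triv ((mem_triv Γ).1 ((Set.Finite.mem_toFinset _).1 hγ)), one_pow]
    simp only [htail, ← Finset.smul_sum]
    rw [Finset.sum_union hdisj, Finset.sum_congr rfl hone, Finset.sum_const, hZcard,
      nsmul_eq_mul, mul_one]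
    simp only [Complex.real_smul]
    ring
  dsimp only
  rw [finrank_eq_integral h h4, hsplit, area_eq Γ h, ← Finset.mul_sum]
  push_cast
  ring

end FA.CocompactGaussBonnet

end
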